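import Fermat.Agent.OpenImageNF.InertValue
import Mathlib.RingTheory.Frobenius
import Mathlib.FieldTheory.Finite.Basic

/-!
# A place of the algebraic closure on finite layers

A valuation ring over a finite place of a number field lies over a place of every finite layer.
Some automorphism acts on a given Galois layer as Frobenius at that place, and an element fixed by
inertia which such an automorphism moves by a multiple of `π ^ n` is congruent to an element of the
number field modulo `π ^ n`.
-/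

set_option autoImplicit false
set_option linter.style.haveILetI false
set_option linter.unusedSectionVars false

noncomputable section

namespace FA.GoodNF

open NumberField IsDedekindDomain FA.Local FA.OpenImageNF

universe u v

variable {K : Type u} [Field K] [NumberField K] {Kb : Type v} [Field Kb]
  [Algebra K Kb] [CharZero Kb] [IsAlgClosed Kb] [Algebra.IsAlgebraic K Kb]
  {A : ValuationSubring Kb} {w : HeightOneSpectrum (𝓞 K)}

/-- An element of the number field is integral at `A` only if it is integral at `w`. -/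
theorem overPlace_le_one_iff (hA : OverPlace A w) (x : K) :
    A.valuation (algebraMap K Kb x) ≤ 1 ↔ w.valuation K x ≤ 1 := by
  refine ⟨fun h => ?_, hA.le_one x⟩
  by_contra hgt
  rw [not_le] at hgt
  have h1 := hA.lt_one x⁻¹ (by rw [map_inv₀]; exact inv_lt_one_of_one_lt₀ hgt)
  rw [map_inv₀, map_inv₀] at h1
  have hx0 : x ≠ 0 := fun e => by rw [e, map_zero] at hgt; exact not_lt_zero hgt
  exact absurd h (not_le.2 ((inv_lt_one₀ (A.valuation.pos_iff.2 ((map_ne_zero _).2 hx0))).1 h1))

theorem overPlace_eq_one_iff (hA : OverPlace A w) (x : K) :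
    A.valuation (algebraMap K Kb x) = 1 ↔ w.valuation K x = 1 := by
  refine ⟨fun h => ?_, hA.eq_one⟩
  refine le_antisymm ((overPlace_le_one_iff hA x).1 h.le) (not_lt.1 fun hlt => ?_)
  exact (hA.lt_one x hlt).ne h

theorem overPlace_lt_one_iff (hA : OverPlace A w) (x : K) :
    A.valuation (algebraMap K Kb x) < 1 ↔ w.valuation K x < 1 := by
  refine ⟨fun h => lt_of_le_of_ne ((overPlace_le_one_iff hA x).1 h.le) fun h1 => ?_,
    hA.lt_one x⟩
  exact h.ne (hA.eq_one h1)

/-- **The place of a finite layer under a valuation ring.** -/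
theorem exists_place (hA : OverPlace A w) (L : IntermediateField K Kb) [NumberField L] :
    ∃ Q : HeightOneSpectrum (𝓞 L), OverPlace (K := L) A Q ∧
      Q.asIdeal.under (𝓞 K) = w.asIdeal ∧
      ∀ a : 𝓞 L, a ∈ Q.asIdeal ↔ A.valuation (algebraMap L Kb (a : L)) < 1 := by
  have hint : ∀ a : 𝓞 L, A.valuation (algebraMap L Kb (a : L)) ≤ 1 := fun a => by
    have hi : IsIntegral ℤ (algebraMap L Kb (a : L)) :=
      a.isIntegral_coe.map (algebraMap L Kb).toIntAlgHom
    obtain ⟨f, hf, hfx⟩ := hi
    exact (Valuation.mem_integer_iff _ _).1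
      ((Valuation.integer.integers A.valuation).mem_of_integral
      ⟨f.map (algebraMap ℤ A.valuation.integer), hf.map _, by
        rw [Polynomial.eval₂_map, ← IsScalarTower.algebraMap_eq]; exact hfx⟩)
  let Q : Ideal (𝓞 L) :=
    { carrier := {a | A.valuation (algebraMap L Kb (a : L)) < 1}
      zero_mem' := by simp
      add_mem' := fun {a b} ha hb => by
        show A.valuation (algebraMap L Kb ((a + b : 𝓞 L) : L)) < 1
        rw [show ((a + b : 𝓞 L) : L) = (a : L) + b from rfl, map_add]
        exact A.valuation.map_add_lt ha hb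
      smul_mem' := fun c {a} ha => by
        show A.valuation (algebraMap L Kb ((c * a : 𝓞 L) : L)) < 1
        rw [show ((c * a : 𝓞 L) : L) = (c : L) * a from rfl, map_mul, map_mul]
        exact lt_of_le_of_lt (mul_le_of_le_one_left' (hint c)) ha }
  have hQ : ∀ a : 𝓞 L, a ∈ Q ↔ A.valuation (algebraMap L Kb (a : L)) < 1 := fun a => Iff.rfl
  have hQp : Q.IsPrime := by
    refine ⟨(Ideal.ne_top_iff_one _).2 fun h => ?_, fun {a b} h => ?_⟩
    · rw [hQ] at h
      simp at h
    · by_contra! hab
      rw [hQ, hQ, not_lt, not_lt] at hab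
      rw [hQ] at h
      rw [show ((a * b : 𝓞 L) : L) = (a : L) * b from rfl, map_mul, map_mul] at h
      exact absurd h (not_lt.2 (one_le_mul hab.1 hab.2))
  have hunder : Q.under (𝓞 K) = w.asIdeal := Ideal.ext fun c => by
    rw [Ideal.under_def, Ideal.mem_comap, hQ,
      show algebraMap L Kb ((algebraMap (𝓞 K) (𝓞 L) c : 𝓞 L) : L) = algebraMap K Kb (c : K)
        from rfl, overPlace_lt_one_iff hA, HeightOneSpectrum.valuation_lt_one_iff_mem]
  have : Q.LiesOver w.asIdeal := ⟨hunder.symm⟩
  let P : HeightOneSpectrum (𝓞 L) := ⟨Q, hQp, Ideal.ne_bot_of_liesOver_of_ne_bot w.ne_bot Q⟩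
  have hdiv : ∀ a : L, P.valuation L a ≤ 1 → ∃ n d : 𝓞 L,
      A.valuation (algebraMap L Kb (d : L)) = 1 ∧ d ∉ Q ∧ a * (d : L) = n := fun a ha => by
    obtain ⟨n, ⟨d, hd⟩, hn⟩ := P.exists_primeCompl_mul_eq_of_integer a ha
    exact ⟨n, d, le_antisymm (hint d) (not_lt.1 fun h => hd ((hQ d).2 h)), hd, hn⟩
  have hle : ∀ a : L, P.valuation L a ≤ 1 → A.valuation (algebraMap L Kb a) ≤ 1 := fun a ha => by
    obtain ⟨n, d, hd, -, he⟩ := hdiv a ha
    have := hint n
    rwa [← he, map_mul, map_mul, hd, mul_one] at this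
  refine ⟨P, ⟨hle, fun a ha => ?_⟩, hunder, hQ⟩
  obtain ⟨n, d, hd, hdQ, he⟩ := hdiv a ha.le
  have hn : n ∈ P.asIdeal := by
    have h3 : P.valuation L (a * (d : L)) < 1 := by
      rw [map_mul]
      exact lt_of_le_of_lt (mul_le_of_le_one_right' (P.valuation_le_one d)) ha
    exact (P.valuation_lt_one_iff_mem (K := L) n).1
      (lt_of_eq_of_lt (congrArg (P.valuation L) he.symm) h3)
  have h2 := (hQ n).1 hn
  rwa [← he, map_mul, map_mul, hd, mul_one] at h2

/-- **Frobenius on a Galois layer**: it keeps the values of the layer and raises its integral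
elements to the power `N w` modulo the maximal ideal. -/
theorem exists_frob_layer (hA : OverPlace A w) (L : IntermediateField K Kb)
    [FiniteDimensional K L] [IsGalois K L] :
    ∃ σ : Kb ≃ₐ[K] Kb, ∀ z ∈ L, A.valuation (σ z) = A.valuation z ∧
      (A.valuation z ≤ 1 → A.valuation (σ z - z ^ Ideal.absNorm w.asIdeal) < 1) := by
  have : IsAlgClosure K Kb := ⟨inferInstance, inferInstance⟩
  have : IsGalois K Kb := IsAlgClosure.isGalois K Kb
  have : NumberField L := NumberField.of_module_finite K L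
  obtain ⟨P, hP, hunder, hQ⟩ := exists_place hA L
  have := P.isPrime
  have : Finite (𝓞 L ⧸ P.asIdeal) := Ideal.finiteQuotientOfFreeOfNeBot _ P.ne_bot
  obtain ⟨τ, hτ⟩ := IsArithFrobAt.exists_of_isInvariant (𝓞 K) (L ≃ₐ[K] L) P.asIdeal
  obtain ⟨σ, rfl⟩ := AlgEquiv.restrictNormalHom_surjective (F := K) (K₁ := L) Kb τ
  set q := Ideal.absNorm w.asIdeal with hq
  have hσ : ∀ x : L, algebraMap L Kb (AlgEquiv.restrictNormalHom L σ x) = σ x :=
    fun x => AlgEquiv.restrictNormalHom_apply L σ x
  have hm : ∀ c : 𝓞 L, A.valuation (σ (algebraMap L Kb (c : L)) -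
      algebraMap L Kb (c : L) ^ q) < 1 := fun c => by
    have h := hτ c
    rw [hunder, show Nat.card (𝓞 K ⧸ w.asIdeal) = q by rw [hq, Ideal.absNorm_apply]; rfl] at h
    have h' := (hQ _).1 h
    have e : ((((MulSemiringAction.toAlgHom (𝓞 K) (𝓞 L) (AlgEquiv.restrictNormalHom L σ)) c -
        c ^ q : 𝓞 L) : L) : Kb) = σ ((c : L) : Kb) - ((c : L) : Kb) ^ q := by
      rw [← hσ]
      push_cast
      rfl
    exact e ▸ h'
  have key : ∀ z ∈ L, A.valuation z ≤ 1 → A.valuation (σ z - z ^ q) < 1 := fun z hz h1 => by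
    have hz1 : P.valuation L ⟨z, hz⟩ ≤ 1 := (overPlace_le_one_iff hP ⟨z, hz⟩).1 h1
    obtain ⟨n, ⟨d, hd⟩, he⟩ := P.exists_primeCompl_mul_eq_of_integer (⟨z, hz⟩ : L) hz1
    have hd1 : A.valuation (algebraMap L Kb (d : L)) = 1 := hP.eq_one
      (le_antisymm (P.valuation_le_one d)
        (not_lt.1 fun h => hd ((P.valuation_lt_one_iff_mem d).1 h)))
    have e : algebraMap L Kb (n : L) = z * algebraMap L Kb (d : L) := by
      rw [show ((n : 𝓞 L) : L) = ⟨z, hz⟩ * (d : L) from he.symm, map_mul]; rfl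
    have c1 := hm n
    have c2 := hm d
    rw [e, map_mul, mul_pow] at c1
    generalize algebraMap L Kb (d : L) = b at c1 c2 hd1
    have hσb : A.valuation (σ b) = 1 :=
      eq_one_of_sub_lt (a := b ^ q) (by rw [map_pow, hd1, one_pow]) c2
    have hd' := A.valuation.map_sub_lt c1
      (show A.valuation (z ^ q * (σ b - b ^ q)) < 1 from map_mul_lt_one (map_pow_le_one h1 q) c2)
    rwa [show σ z * σ b - z ^ q * b ^ q - z ^ q * (σ b - b ^ q) = σ b * (σ z - z ^ q) by ring,
      map_mul, hσb, one_mul] at hd'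
  have hq0 : q ≠ 0 := fun h => w.ne_bot (Ideal.absNorm_eq_zero_iff.1 (hq ▸ h))
  have hdown : ∀ z ∈ L, A.valuation z < 1 → A.valuation (σ z) < 1 := fun z hz h => by
    have h2 := key z hz h.le
    simpa using A.valuation.map_add_lt h2
      (show A.valuation (z ^ q) < 1 by rw [map_pow]; exact pow_lt_one₀ zero_le h hq0)
  have hmem : ∀ z ∈ L, σ z ∈ L := fun z hz => hσ ⟨z, hz⟩ ▸ SetLike.coe_mem _
  have hmono : ∀ a ∈ L, ∀ b ∈ L, A.valuation a < A.valuation b →
      A.valuation (σ a) < A.valuation (σ b) := fun a ha b hb hab => by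
    have hb0 : b ≠ 0 := A.valuation.pos_iff.mp (lt_of_le_of_lt zero_le hab)
    have h := hdown (a / b) (div_mem ha hb) (map_div_lt_one hab)
    rwa [map_div₀, map_div₀, div_lt_one₀ (A.valuation.pos_iff.mpr (by simpa using hb0))] at h
  refine ⟨σ, fun z hz => ⟨?_, key z hz⟩⟩
  set τ := AlgEquiv.restrictNormalHom L σ
  have hstep : ∀ i : ℕ,
      algebraMap L Kb ((τ ^ (i + 1)) ⟨z, hz⟩) = σ (algebraMap L Kb ((τ ^ i) ⟨z, hz⟩)) :=
    fun i => by rw [pow_succ', AlgEquiv.mul_apply, hσ]; rfl
  rcases lt_trichotomy (A.valuation (σ z)) (A.valuation z) with h | h | h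
  · have hanti : StrictAnti fun i : ℕ => A.valuation (algebraMap L Kb ((τ ^ i) ⟨z, hz⟩)) :=
      strictAnti_nat_of_succ_lt fun i => by
        induction i with
        | zero => simpa [hσ, τ] using h
        | succ i ih =>
          have := hmono _ (SetLike.coe_mem _) _ (SetLike.coe_mem _) ih
          change A.valuation (σ (algebraMap L Kb _)) < A.valuation (σ (algebraMap L Kb _)) at this
          rwa [← hstep (i + 1), ← hstep i] at this
    have := hanti (orderOf_pos τ)
    simp only [pow_orderOf_eq_one, pow_zero, lt_self_iff_false] at this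
  · exact h
  · have hmono' : StrictMono fun i : ℕ => A.valuation (algebraMap L Kb ((τ ^ i) ⟨z, hz⟩)) :=
      strictMono_nat_of_lt_succ fun i => by
        induction i with
        | zero => simpa [hσ, τ] using h
        | succ i ih =>
          have := hmono _ (SetLike.coe_mem _) _ (SetLike.coe_mem _) ih
          change A.valuation (σ (algebraMap L Kb _)) < A.valuation (σ (algebraMap L Kb _)) at this
          rwa [← hstep (i + 1), ← hstep i] at this
    have := hmono' (orderOf_pos τ)
    simp only [pow_orderOf_eq_one, pow_zero, lt_self_iff_false] at this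

/-- An integral element whose residue is fixed by the power `N w` is congruent to an integral
element of the number field. -/
theorem exists_congr_of_pow (hA : OverPlace A w) {y : Kb} (hy : A.valuation y ≤ 1)
    (h : A.valuation (y ^ Ideal.absNorm w.asIdeal - y) < 1) :
    ∃ c : 𝓞 K, A.valuation (y - algebraMap K Kb (c : K)) < 1 := by
  classical
  have := w.isMaximal
  let _ := Ideal.Quotient.field w.asIdeal
  have : Finite (𝓞 K ⧸ w.asIdeal) := Ideal.finiteQuotientOfFreeOfNeBot _ w.ne_bot
  let _ := Fintype.ofFinite (𝓞 K ⧸ w.asIdeal)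
  set q := Ideal.absNorm w.asIdeal with hq
  have hcard : Fintype.card (𝓞 K ⧸ w.asIdeal) = q := by
    rw [← Nat.card_eq_fintype_card, hq, Ideal.absNorm_apply]; rfl
  have hmem : ∀ x : 𝓞 K, algebraMap K Kb (x : K) ∈ A := fun x =>
    (A.valuation_le_one_iff _).1 (hA.le_one _ (w.valuation_le_one x))
  let g : 𝓞 K →+* IsLocalRing.ResidueField A := (IsLocalRing.residue A).comp
    ((algebraMap K Kb).comp (algebraMap (𝓞 K) K) |>.codRestrict A.toSubring hmem)
  let f : 𝓞 K ⧸ w.asIdeal →+* IsLocalRing.ResidueField A := Ideal.Quotient.lift w.asIdeal g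
    fun x hx => by
      show IsLocalRing.residue A ⟨algebraMap K Kb x, hmem x⟩ = 0
      rw [IsLocalRing.residue_eq_zero_iff, ← A.coe_mem_nonunits_iff, A.mem_nonunits_iff]
      exact hA.lt_one _ ((w.valuation_lt_one_iff_mem x).2 hx)
  let yA : A := ⟨y, (A.valuation_le_one_iff _).1 hy⟩
  have hroot : IsLocalRing.residue A yA ^ q = IsLocalRing.residue A yA := by
    rw [← map_pow, ← sub_eq_zero, ← map_sub, IsLocalRing.residue_eq_zero_iff,
      ← A.coe_mem_nonunits_iff, A.mem_nonunits_iff]
    exact h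
  have hq1 : 1 < q := hcard ▸ Fintype.one_lt_card
  have hsplit : ((Polynomial.X ^ q - Polynomial.X : Polynomial (𝓞 K ⧸ w.asIdeal))).Splits := by
    rw [Polynomial.splits_iff_card_roots, ← hcard, FiniteField.roots_X_pow_card_sub_X,
      FiniteField.X_pow_card_sub_X_natDegree_eq _ (hcard ▸ hq1)]
    rfl
  have hr : IsLocalRing.residue A yA ∈
      ((Polynomial.X ^ q - Polynomial.X : Polynomial (𝓞 K ⧸ w.asIdeal)).map f).roots := by
    rw [Polynomial.mem_roots']
    refine ⟨(Polynomial.map_ne_zero_iff f.injective).2 (FiniteField.X_pow_card_sub_X_ne_zero _ hq1),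
      ?_⟩
    simp [hroot]
  rw [hsplit.roots_map f] at hr
  obtain ⟨c₀, -, hc₀⟩ := Multiset.mem_map.1 hr
  obtain ⟨c, rfl⟩ := Ideal.Quotient.mk_surjective c₀
  refine ⟨c, ?_⟩
  have h0 : IsLocalRing.residue A (yA - ⟨algebraMap K Kb (c : K), hmem c⟩) = 0 := by
    rw [map_sub, ← hc₀]
    exact sub_self _
  rw [IsLocalRing.residue_eq_zero_iff, ← A.coe_mem_nonunits_iff, A.mem_nonunits_iff] at h0
  exact h0

/-- An element fixed by inertia and of value less than one has value at most that of a
uniformizer. -/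
theorem le_unif_of_fixed (hA : OverPlace A w) {π : K}
    (hπ : w.valuation K π = WithZero.exp (-1 : ℤ)) {x : Kb}
    (hx : ∀ σ ∈ inertGroup K A, σ x = x) (h : A.valuation x < 1) :
    A.valuation x ≤ A.valuation (algebraMap K Kb π) := by
  rcases eq_or_ne x 0 with rfl | hx0
  · rw [map_zero]; exact zero_le
  obtain ⟨k, hk⟩ := exists_zpow_of_fixed hA hπ hx0 hx
  have hπ1 : A.valuation (algebraMap K Kb π) < 1 := hA.lt_one π (by
    rw [hπ, ← WithZero.exp_zero, WithZero.exp_lt_exp]; omega)
  have hπ0 : 0 < A.valuation (algebraMap K Kb π) := A.valuation.pos_iff.2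
    ((map_ne_zero _).2 fun h0 => by rw [h0, map_zero] at hπ; exact WithZero.exp_ne_zero hπ.symm)
  rw [hk] at h ⊢
  have hk1 : 1 ≤ k := by
    by_contra hle
    exact absurd h (not_lt.2 (one_le_zpow_of_nonpos₀ hπ0 hπ1.le (by omega)))
  calc A.valuation (algebraMap K Kb π) ^ k ≤ A.valuation (algebraMap K Kb π) ^ (1 : ℤ) :=
        zpow_le_zpow_right_of_le_one₀ hπ0 hπ1.le hk1
    _ = _ := zpow_one _

/-- **Descent to the number field**: an element of a layer, fixed by inertia, moved by Frobenius of
the layer by a multiple of `π ^ n`, is congruent to an integral element of the number field modulo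
`π ^ n`. -/
theorem exists_congr_of_fixed (hA : OverPlace A w) {π : K}
    (hπ : w.valuation K π = WithZero.exp (-1 : ℤ)) (L : IntermediateField K Kb) {σ : Kb ≃ₐ[K] Kb}
    (hσ : ∀ z ∈ L, A.valuation z ≤ 1 →
      A.valuation (σ z - z ^ Ideal.absNorm w.asIdeal) < 1) {x : Kb} (hxL : x ∈ L)
    (hx : ∀ τ ∈ inertGroup K A, τ x = x) (hint : A.valuation x ≤ 1) :
    ∀ n : ℕ, A.valuation (σ x - x) ≤ A.valuation (algebraMap K Kb π) ^ n →
      ∃ c : K, w.valuation K c ≤ 1 ∧
        A.valuation (x - algebraMap K Kb c) ≤ A.valuation (algebraMap K Kb π) ^ n := by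
  intro n
  set p := algebraMap K Kb π with hp
  have hπ0 : π ≠ 0 := fun h0 => by rw [h0, map_zero] at hπ; exact WithZero.exp_ne_zero hπ.symm
  have hp0 : p ≠ 0 := (map_ne_zero _).2 hπ0
  have hvp : 0 < A.valuation p := A.valuation.pos_iff.2 hp0
  have hp1 : A.valuation p < 1 := hA.lt_one π (by
    rw [hπ, ← WithZero.exp_zero, WithZero.exp_lt_exp]; omega)
  have hwπ : w.valuation K π ≤ 1 := by
    rw [hπ, ← WithZero.exp_zero, WithZero.exp_le_exp]; omega
  induction n with
  | zero => exact fun _ => ⟨0, by simp, by simpa using hint⟩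
  | succ n ih =>
    intro h
    obtain ⟨c, hc1, hc⟩ := ih (h.trans (pow_le_pow_right_of_le_one' hp1.le n.le_succ))
    set y := (x - algebraMap K Kb c) / p ^ n with hy
    have hy1 : A.valuation y ≤ 1 := by
      rw [hy, map_div₀, map_pow, div_le_one₀ (pow_pos hvp n)]
      exact hc
    have hyL : y ∈ L := by
      rw [hy, hp, ← map_pow]
      exact div_mem (sub_mem hxL (L.algebraMap_mem c)) (L.algebraMap_mem _)
    have hsy : A.valuation (σ y - y) < 1 := by
      have e : σ y - y = (σ x - x) / p ^ n := by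
        rw [hy, map_div₀, map_sub, map_pow, AlgEquiv.commutes, hp, AlgEquiv.commutes, ← sub_div]
        ring
      rw [e, map_div₀, map_pow, div_lt_one₀ (pow_pos hvp n)]
      exact h.trans_lt (pow_lt_pow_right_of_lt_one₀ hvp hp1 n.lt_succ_self)
    obtain ⟨j, hj⟩ := exists_congr_of_pow hA hy1 (by
      have h2 := A.valuation.map_sub_lt hsy (hσ y hyL hy1)
      rwa [sub_sub_sub_cancel_left] at h2)
    refine ⟨c + π ^ n * (j : K),
      (w.valuation K).map_add_le hc1 (map_mul_le_one (map_pow_le_one hwπ n) (w.valuation_le_one j)),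
      ?_⟩
    have hfix : ∀ τ ∈ inertGroup K A, τ (y - algebraMap K Kb (j : K)) =
        y - algebraMap K Kb (j : K) := fun τ hτ => by
      rw [map_sub, AlgEquiv.commutes, hy, map_div₀, map_sub, map_pow, AlgEquiv.commutes, hp,
        AlgEquiv.commutes, hx τ hτ]
    have e : x - algebraMap K Kb (c + π ^ n * (j : K)) =
        p ^ n * (y - algebraMap K Kb (j : K)) := by
      rw [hy, mul_sub, mul_div_cancel₀ _ (pow_ne_zero n hp0), map_add, map_mul, map_pow, ← hp]
      ring
    rw [e, map_mul, map_pow, pow_succ]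
    exact mul_le_mul_right (le_unif_of_fixed hA hπ hfix hj) _

end FA.GoodNF

end
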