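import Fermat.Agent.GoodReductionNF.Criterion
import Fermat.Agent.OpenImageNF.NodeClasses
import Fermat.Agent.OpenImageNF.TateBasis
import Fermat.Agent.IsogenyNF.PoleModel

/-!
# The criterion of Néron, Ogg and Shafarevich over number fields

Good reduction at a place makes inertia fix the torsion prime to it. Where `j` is integral some
finite layer has good reduction at its place, and where `j` has a pole inertia moves some torsion
point of `p`-power order over every finite layer, for every prime `p`. So good reduction is trivial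
inertia on the `p`-power torsion and potentially good reduction, the integrality of `j`, is a finite
inertia image.
-/

set_option autoImplicit false
set_option linter.style.haveILetI false
set_option linter.unusedSectionVars false

noncomputable section

namespace FA.GoodNF

open WeierstrassCurve NumberField IsDedekindDomain FA.Frob FA.Local FA.OpenImageNF
open scoped WeierstrassCurve.Affine

universe u v

variable {K : Type u} [Field K] [NumberField K] {Kb : Type v} [Field Kb] [DecidableEq Kb]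
  [Algebra K Kb] [CharZero Kb] [IsAlgClosed Kb] [Algebra.IsAlgebraic K Kb]
  {A : ValuationSubring Kb} {w : HeightOneSpectrum (𝓞 K)}

/-- The invariant and the discriminant. -/
theorem c₄_pow_three {R : Type*} [Field R] (V : WeierstrassCurve R) [V.IsElliptic] :
    V.c₄ ^ 3 = V.j * V.Δ := by
  rw [WeierstrassCurve.j, Units.val_inv_eq_inv_val, coe_Δ']
  field_simp [V.isUnit_Δ.ne_zero]

/-- An integral equation has integral `c₄`. -/
theorem map_c₄_le_one {L Γ : Type*} [Field L] [LinearOrderedCommGroupWithZero Γ]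
    {v : Valuation L Γ} {V : WeierstrassCurve L} (hI : IntCoeff v V.toAffine) : v V.c₄ ≤ 1 := by
  let V' : WeierstrassCurve v.integer :=
    ⟨⟨_, hI.h₁⟩, ⟨_, hI.h₂⟩, ⟨_, hI.h₃⟩, ⟨_, hI.h₄⟩, ⟨_, hI.h₆⟩⟩
  have e' : V'.map v.integer.subtype = V := rfl
  rw [← e', map_c₄]
  exact V'.c₄.2

/-- Good reduction makes the invariant integral. -/
theorem j_le_one_of_goodAt {E : WeierstrassCurve K} [E.IsElliptic] (h : GoodAt E w) :
    w.valuation K E.j ≤ 1 := by
  obtain ⟨C, hI, hΔ⟩ := h
  have e := congrArg (w.valuation K) (c₄_pow_three (C • E))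
  rw [map_mul, map_pow, hΔ, mul_one, variableChange_j] at e
  rw [← e]
  exact pow_le_one₀ zero_le (map_c₄_le_one hI)

/-- **Good reduction**: inertia fixes the torsion prime to the place. -/
theorem smul_eq_of_goodAt {E : WeierstrassCurve K} [E.IsElliptic] (hA : OverPlace A w)
    (h : GoodAt E w) {p : ℕ} (hp : p.Prime) (hpv : w.valuation K (p : K) = 1) {σ : Kb ≃ₐ[K] Kb}
    (hσ : σ ∈ inertGroup K A) {n : ℕ} {P : (E.toAffine⁄Kb).Point} (hP : p ^ n • P = 0) :
    σ • P = P := by
  obtain ⟨C, hI, hΔ⟩ := h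
  haveI : (E.baseChange Kb).IsElliptic := inferInstanceAs (E.map (algebraMap K Kb)).IsElliptic
  haveI : ((C • E).baseChange Kb).IsElliptic :=
    inferInstanceAs ((C • E).map (algebraMap K Kb)).IsElliptic
  have hC' : C.map (algebraMap K Kb) • E.baseChange Kb = (C • E).baseChange Kb := by
    simp only [WeierstrassCurve.baseChange, map_variableChange]
  set e := FA.Frob.vcEquiv _ hC'
  obtain ⟨Q, rfl⟩ := e.surjective P
  have hI' : IntCoeff A.valuation ((C • E).baseChange Kb).toAffine :=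
    FA.IsogenyNF.intCoeff_of_place hA.le_one hI
  have hΔ' : A.valuation ((C • E).baseChange Kb).toAffine.Δ = 1 := by
    show A.valuation ((C • E).map (algebraMap K Kb)).Δ = 1
    rw [map_Δ]
    exact hA.eq_one hΔ
  have hQ : p ^ n • Q = 0 := e.injective (by rw [map_nsmul, hP, map_zero])
  have h0 := eq_zero_of_e1_prime_pow hI' hp
    (by rw [← map_natCast (algebraMap K Kb)]; exact hA.eq_one hpv)
    ((mem_inertGroup.1 hσ).e1_smul_sub_of_good (C • E) hI' hΔ' Q) (n := n)
    (by rw [nsmul_sub, ← FA.IsogenyNF.smul_nsmul', hQ, smul_zero, sub_self])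
  rw [← FA.IsogenyNF.vcEquiv_smul hC', sub_eq_zero.1 h0]

/-- An inertia element fixing a layer, as an element of inertia over the layer. -/
theorem mem_inertGroup_layer {L : IntermediateField K Kb} {σ : Kb ≃ₐ[K] Kb}
    (hσ : σ ∈ inertGroup K A) (h : σ ∈ L.fixingSubgroup) :
    L.fixingSubgroupEquiv ⟨σ, h⟩ ∈ inertGroup L A :=
  ⟨(mem_inertGroup.1 hσ).map_eq, (mem_inertGroup.1 hσ).sub_lt⟩

/-- **Potentially good reduction**: where `j` is integral some finite layer has good reduction. -/
theorem exists_layer_goodAt {E : WeierstrassCurve K} [E.IsElliptic] (hA : OverPlace A w)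
    (hj : w.valuation K E.j ≤ 1) :
    ∃ (L : IntermediateField K Kb) (_ : FiniteDimensional K L) (_ : NumberField L)
      (Q : HeightOneSpectrum (𝓞 L)), OverPlace (K := L) A Q ∧ GoodAt (E.map (algebraMap K L)) Q := by
  haveI : (E.baseChange Kb).IsElliptic := inferInstanceAs (E.map (algebraMap K Kb)).IsElliptic
  obtain ⟨C, hI, hΔ⟩ := exists_goodModel (v := A.valuation) (E.baseChange Kb)
    (by rw [show (E.baseChange Kb).j = algebraMap K Kb E.j from map_j _ _]; exact hA.le_one _ hj)
  let S : Set Kb := {(C.u : Kb), C.r, C.s, C.t}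
  have : Finite S := (Set.toFinite S).to_subtype
  let L := IntermediateField.adjoin K S
  have : FiniteDimensional K L :=
    IntermediateField.finiteDimensional_adjoin fun x _ => Algebra.IsIntegral.isIntegral x
  have : NumberField L := NumberField.of_module_finite K L
  obtain ⟨Q, hQ, -, -⟩ := exists_place hA L
  refine ⟨L, inferInstance, inferInstance, Q, hQ, ?_⟩
  have hS : S ⊆ L := IntermediateField.subset_adjoin K S
  let C' : VariableChange L :=
    ⟨Units.mk0 ⟨_, hS (show (C.u : Kb) ∈ S by simp [S])⟩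
        (fun h => C.u.ne_zero (congrArg Subtype.val h)),
      ⟨_, hS (show C.r ∈ S by simp [S])⟩, ⟨_, hS (show C.s ∈ S by simp [S])⟩,
      ⟨_, hS (show C.t ∈ S by simp [S])⟩⟩
  have hC : C'.map (algebraMap L Kb) = C := VariableChange.ext (Units.ext rfl) rfl rfl rfl
  have hmap : (C' • E.map (algebraMap K L)).map (algebraMap L Kb) = C • E.baseChange Kb := by
    rw [← map_variableChange, hC]
    rfl
  rw [← hmap] at hI hΔ
  have hi := overPlace_le_one_iff hQ
  exact ⟨C', ⟨(hi _).1 hI.h₁, (hi _).1 hI.h₂, (hi _).1 hI.h₃, (hi _).1 hI.h₄, (hi _).1 hI.h₆⟩,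
    (overPlace_eq_one_iff hQ _).1 (by rw [← map_Δ]; exact hΔ)⟩

/-- Where `j` is integral a finite layer has inertia acting trivially on all the torsion prime to
the place; the layer does not depend on the prime. -/
theorem exists_layer_fixes {E : WeierstrassCurve K} [E.IsElliptic] (hA : OverPlace A w)
    (hj : w.valuation K E.j ≤ 1) :
    ∃ L : IntermediateField K Kb, FiniteDimensional K L ∧
      ∀ σ ∈ inertGroup K A, σ ∈ L.fixingSubgroup → ∀ p : ℕ, p.Prime →
        w.valuation K (p : K) = 1 →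
          ∀ (n : ℕ) (P : (E.toAffine⁄Kb).Point), p ^ n • P = 0 → σ • P = P := by
  obtain ⟨L, hfin, hnf, Q, hQ, hgood⟩ := exists_layer_goodAt (Kb := Kb) hA hj
  refine ⟨L, hfin, fun σ hσ hL p hp hpv n P hP => ?_⟩
  have : Algebra.IsAlgebraic L Kb := Algebra.IsAlgebraic.tower_top (K := K) L
  have hpQ : Q.valuation L (p : L) = 1 := by
    refine (overPlace_eq_one_iff hQ _).1 ?_
    rw [map_natCast, ← map_natCast (algebraMap K Kb)]
    exact hA.eq_one hpv
  have h := smul_eq_of_goodAt (Kb := Kb) hQ hgood hp hpQ (mem_inertGroup_layer hσ hL) (n := n)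
    (P := (show ((E.map (algebraMap K L)).toAffine⁄Kb).Point from P)) hP
  rcases P with _ | ⟨x, y, hxy⟩
  · exact smul_zero σ
  · exact h

/-- Inertia moves some torsion point of `p`-power order at a node, for every prime `p`. -/
theorem exists_moved_of_node {W : WeierstrassCurve K} [W.IsElliptic] {π : K} {N : ℕ} {r : Kb}
    (D : NodeK W A w π N r) {p : ℕ} (hp : p.Prime) :
    ∃ σ ∈ inertGroup K A, ∃ (n : ℕ) (x : (W.toAffine⁄Kb).Point),
      p ^ n • x = 0 ∧ σ • x ≠ x := by
  have := Fact.mk hp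
  by_contra! hall
  obtain ⟨f, hf⟩ := D.exists_fixed_class
  set C := Fintype.card (Option (Option (Fin (N + 1) × Bool))) with hC
  have hmem : ∀ (n : ℕ) (x : (W.toAffine⁄Kb).Point), p ^ n • x = 0 →
      C.factorial • x ∈ D.e0Sub := fun n x hx => by
    obtain ⟨i, i', hne, he'⟩ := Fintype.exists_ne_map_eq_of_card_lt
      (fun k : Fin (C + 1) => f (k.1 • x)) (by rw [Fintype.card_fin, hC]; omega)
    wlog hlt : i < i' generalizing i i'
    · exact this i' i hne.symm he'.symm (lt_of_le_of_ne (not_lt.mp hlt) hne.symm)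
    have hfix : ∀ k : ℕ, ∀ σ ∈ inertGroup K A, σ • (k • x) = k • x := fun k σ hσ => by
      rw [FA.IsogenyNF.smul_nsmul', hall σ hσ n x hx]
    have hd := hf _ _ (hfix i'.1) (hfix i.1) he'.symm
    rw [sub_eq_add_neg, ← sub_nsmul _ hlt.le] at hd
    obtain ⟨m, hm'⟩ : i'.1 - i.1 ∣ C.factorial :=
      Nat.dvd_factorial (Nat.sub_pos_of_lt hlt) (by have := i'.2; omega)
    rw [hm', mul_nsmul]
    exact D.e0Sub.nsmul_mem hd m
  obtain ⟨P, hP, hP0⟩ := D.exists_torsion_not_mem hp
  obtain ⟨S, hS1, hS0, hSs⟩ := exists_seq W hP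
  obtain ⟨k, m, hm, hkm⟩ := Nat.exists_eq_pow_mul_and_not_dvd C.factorial_ne_zero p hp.ne_one
  have hpk : ∀ k : ℕ, p ^ k • S (k + 1) = P := fun k => by
    induction k with
    | zero => rw [pow_zero, one_nsmul, hS1]
    | succ k ih => rw [pow_succ, mul_nsmul', hSs, ih]
  have h1 := hmem (k + 1) (S (k + 1)) (hS0 _)
  rw [hkm, mul_comm, mul_nsmul', hpk] at h1
  refine hP0 ?_
  obtain ⟨u, v, huv⟩ := Nat.isCoprime_iff_coprime.2 ((hp.coprime_iff_not_dvd).2 hm).symm
  have h2 := D.e0Sub.zsmul_mem h1 u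
  rwa [← natCast_zsmul, smul_smul, show u * (m : ℤ) = 1 - v * p by linear_combination huv,
    sub_zsmul, one_zsmul, mul_zsmul, natCast_zsmul, hP, zsmul_zero, neg_zero, add_zero] at h2

/-- **A pole of `j`**: over every finite layer inertia moves some torsion point of `p`-power order,
for every prime `p`. -/
theorem exists_moved_of_pole {E : WeierstrassCurve K} [E.IsElliptic] (hA : OverPlace A w)
    (hj : 1 < w.valuation K E.j) {p : ℕ} (hp : p.Prime) (L₀ : IntermediateField K Kb)
    [FiniteDimensional K L₀] :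
    ∃ σ ∈ inertGroup K A, σ ∈ L₀.fixingSubgroup ∧
      ∃ (n : ℕ) (P : (E.toAffine⁄Kb).Point), p ^ n • P = 0 ∧ σ • P ≠ P := by
  obtain ⟨h0, h1728, hI, hc, hΔ⟩ := FA.IsogenyNF.poleModel_at w hj
  set M := FA.IsogenyNF.poleModel E.j
  haveI : M.IsElliptic := FA.IsogenyNF.poleModel_isElliptic h0 h1728
  haveI : (E.baseChange Kb).IsElliptic := inferInstanceAs (E.map (algebraMap K Kb)).IsElliptic
  haveI : (M.baseChange Kb).IsElliptic := inferInstanceAs (M.map (algebraMap K Kb)).IsElliptic
  obtain ⟨C, hC⟩ := exists_variableChange_of_j_eq (E.baseChange Kb) (M.baseChange Kb) (by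
    rw [show (E.baseChange Kb).j = algebraMap K Kb E.j from map_j _ _,
      show (M.baseChange Kb).j = algebraMap K Kb M.j from map_j _ _,
      FA.IsogenyNF.poleModel_j h0 h1728])
  let S : Set Kb := {(C.u : Kb), C.r, C.s, C.t}
  have : Finite S := (Set.toFinite S).to_subtype
  have : FiniteDimensional K (IntermediateField.adjoin K S) :=
    IntermediateField.finiteDimensional_adjoin fun x _ => Algebra.IsIntegral.isIntegral x
  let L := L₀ ⊔ IntermediateField.adjoin K S
  have : NumberField L := NumberField.of_module_finite K L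
  have : Algebra.IsAlgebraic L Kb := Algebra.IsAlgebraic.tower_top (K := K) L
  obtain ⟨Q, hQ, -, -⟩ := exists_place hA L
  have hK : ∀ x : K, algebraMap L Kb (algebraMap K L x) = algebraMap K Kb x := fun x => rfl
  have hup : ∀ x : K, w.valuation K x ≤ 1 → Q.valuation L (algebraMap K L x) ≤ 1 := fun x hx =>
    (overPlace_le_one_iff hQ _).1 (hK x ▸ hA.le_one x hx)
  set M' := M.map (algebraMap K L)
  have hI' : IntCoeff (Q.valuation L) M'.toAffine := FA.IsogenyNF.intCoeff_of_place hup hI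
  have hc' : Q.valuation L M'.c₄ = 1 := by
    rw [map_c₄]
    exact (overPlace_eq_one_iff hQ _).1 (hK M.c₄ ▸ hA.eq_one hc)
  obtain ⟨N, hN, hΔ'⟩ : ∃ N : ℕ, 0 < N ∧ Q.valuation L M'.Δ = WithZero.exp (-(N : ℤ)) := by
    have hlt : Q.valuation L M'.Δ < 1 := by
      rw [map_Δ]
      refine (overPlace_lt_one_iff hQ _).1 (hK M.Δ ▸ hA.lt_one _ ?_)
      rw [hΔ]
      exact inv_lt_one_of_one_lt₀ hj
    have hne : Q.valuation L M'.Δ ≠ 0 := (Q.valuation L).ne_zero_iff.2 M'.isUnit_Δ.ne_zero
    rw [← WithZero.exp_log hne, ← WithZero.exp_zero, WithZero.exp_lt_exp] at hlt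
    refine ⟨(-WithZero.log (Q.valuation L M'.Δ)).toNat, by omega, ?_⟩
    rw [Int.toNat_of_nonneg (by omega), neg_neg, WithZero.exp_log hne]
  obtain ⟨π, hπ⟩ := Q.valuation_exists_uniformizer L
  have hπ0 : π ≠ 0 := fun h => by rw [h, map_zero] at hπ; exact WithZero.exp_ne_zero hπ.symm
  have hI'' : IntCoeff A.valuation (M'.baseChange Kb).toAffine :=
    FA.IsogenyNF.intCoeff_of_place hQ.le_one hI'
  obtain ⟨r, hr, hr1, hnode⟩ := FA.Local.exists_node (V := M'.baseChange Kb) hI'' two_ne_zero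
    (by
      rw [WeierstrassCurve.baseChange, map_Δ]
      exact hQ.lt_one _ (by rw [hΔ', ← WithZero.exp_zero, WithZero.exp_lt_exp]; omega))
    (M'.baseChange Kb).isUnit_Δ.ne_zero
    (by rw [WeierstrassCurve.baseChange, map_c₄]; exact hQ.eq_one hc')
  have D : NodeK M' A Q π N r := ⟨hQ, hπ, hI'', hr, hr1, hnode, by
    have h1 := hQ.eq_one (x := M'.Δ / π ^ N) (by
      rw [map_div₀, map_pow, hΔ', hπ, ← WithZero.exp_nsmul,
        div_eq_one_iff_eq WithZero.exp_ne_zero]
      congr 1
      simp)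
    rw [map_div₀, map_div₀, map_pow, map_pow, div_eq_one_iff_eq
      (pow_ne_zero _ (A.valuation.ne_zero_iff.2 ((map_ne_zero _).2 hπ0)))] at h1
    rw [WeierstrassCurve.baseChange, map_Δ]
    exact h1⟩
  obtain ⟨σ, hσ, n, x, hx, hne⟩ := exists_moved_of_node D hp
  set E' := E.map (algebraMap K L)
  have hS : S ⊆ L := fun z hz =>
    (le_sup_right : IntermediateField.adjoin K S ≤ L) (IntermediateField.subset_adjoin K S hz)
  let C' : VariableChange L :=
    ⟨Units.mk0 ⟨_, hS (show (C.u : Kb) ∈ S by simp [S])⟩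
        (fun h => C.u.ne_zero (congrArg Subtype.val h)),
      ⟨_, hS (show C.r ∈ S by simp [S])⟩, ⟨_, hS (show C.s ∈ S by simp [S])⟩,
      ⟨_, hS (show C.t ∈ S by simp [S])⟩⟩
  haveI : (E'.baseChange Kb).IsElliptic := inferInstanceAs (E'.map (algebraMap L Kb)).IsElliptic
  haveI : (M'.baseChange Kb).IsElliptic := inferInstanceAs (M'.map (algebraMap L Kb)).IsElliptic
  have hC' : C'.map (algebraMap L Kb) • E'.baseChange Kb = M'.baseChange Kb := by
    rw [show C'.map (algebraMap L Kb) = C from VariableChange.ext (Units.ext rfl) rfl rfl rfl]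
    exact hC
  set e := FA.Frob.vcEquiv _ hC'
  refine ⟨σ.restrictScalars K, ⟨(mem_inertGroup.1 hσ).map_eq, (mem_inertGroup.1 hσ).sub_lt⟩,
    (IntermediateField.mem_fixingSubgroup_iff _ _).2 fun z hz =>
      σ.commutes ⟨z, (le_sup_left : L₀ ≤ L) hz⟩, n,
    (show (E.toAffine⁄Kb).Point from e x), ?_, fun h => hne (e.injective ?_)⟩
  · show p ^ n • e x = 0
    rw [← map_nsmul, hx, map_zero]
  · rw [FA.IsogenyNF.vcEquiv_smul hC']
    rcases hy : e x with _ | ⟨a, b, hab⟩
    · exact smul_zero σ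
    · rw [hy] at h
      exact h

/-- A point of order `p ^ a`, at least `4`. -/
theorem exists_point_order (E : WeierstrassCurve K) [E.IsElliptic] {p : ℕ} (hp : p.Prime) {a : ℕ}
    (h4 : 4 ≤ p ^ a) :
    ∃ P : (E.toAffine⁄Kb).Point, p ^ a • P = 0 ∧ ∀ k : ℕ, 0 < k → k < 4 → k • P ≠ 0 := by
  have hn : p ^ a ≠ 0 := by omega
  obtain ⟨P, Q, h⟩ := FA.IsogenyNF.exists_torGen_level (Kb := Kb) E hn
  refine ⟨h.coord (Pi.single 0 1), h.nsmul_coord _, fun k hk hk4 hz => ?_⟩
  rw [← map_nsmul] at hz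
  have h0 : k • (Pi.single 0 1 : Fin 2 → ZMod (p ^ a)) = 0 :=
    h.coord_injective hn (by rw [hz, map_zero])
  have h1 := congrFun h0 0
  rw [Pi.smul_apply, Pi.single_eq_same, nsmul_one, Pi.zero_apply, ZMod.natCast_eq_zero_iff] at h1
  have := Nat.le_of_dvd hk h1
  omega

/-- **Raynaud's criterion**: where `j` is integral, inertia fixing the points killed by one
`p ^ a ≥ 4` prime to the place forces good reduction. -/
theorem goodAt_of_level {E : WeierstrassCurve K} [E.IsElliptic] (hA : OverPlace A w) {p : ℕ}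
    (hp : p.Prime) (hpv : w.valuation K (p : K) = 1) (hj : w.valuation K E.j ≤ 1) {a : ℕ}
    (h4 : 4 ≤ p ^ a)
    (hfix : ∀ σ ∈ inertGroup K A, ∀ P : (E.toAffine⁄Kb).Point, p ^ a • P = 0 → σ • P = P) :
    GoodAt E w := by
  obtain ⟨P, hP, hk⟩ := exists_point_order (Kb := Kb) E hp h4
  exact goodAt_of_fixed_point E hA hp hpv hj hP hk fun σ hσ => hfix σ hσ P hP

/-- **The criterion for potentially good reduction.** -/
theorem j_le_one_iff {E : WeierstrassCurve K} [E.IsElliptic] (hA : OverPlace A w) {p : ℕ}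
    (hp : p.Prime) (hpv : w.valuation K (p : K) = 1) :
    w.valuation K E.j ≤ 1 ↔
      ∃ L : IntermediateField K Kb, FiniteDimensional K L ∧
        ∀ σ ∈ inertGroup K A, σ ∈ L.fixingSubgroup →
          ∀ (n : ℕ) (P : (E.toAffine⁄Kb).Point), p ^ n • P = 0 → σ • P = P := by
  refine ⟨fun hj => ?_, fun ⟨L, hfin, hfix⟩ => ?_⟩
  · obtain ⟨L, hfin, h⟩ := exists_layer_fixes (Kb := Kb) hA hj
    exact ⟨L, hfin, fun σ hσ hL => h σ hσ hL p hp hpv⟩
  by_contra hgt
  obtain ⟨σ, hσ, hL, n, P, hP, hne⟩ := exists_moved_of_pole (Kb := Kb) hA (not_le.1 hgt) hp L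
  exact hne (hfix σ hσ hL n P hP)

/-- **The criterion of Néron, Ogg and Shafarevich.** -/
theorem goodAt_iff {E : WeierstrassCurve K} [E.IsElliptic] (hA : OverPlace A w) {p : ℕ}
    (hp : p.Prime) (hpv : w.valuation K (p : K) = 1) :
    GoodAt E w ↔ ∀ σ ∈ inertGroup K A,
      ∀ (n : ℕ) (P : (E.toAffine⁄Kb).Point), p ^ n • P = 0 → σ • P = P := by
  refine ⟨fun h σ hσ n P hP => smul_eq_of_goodAt hA h hp hpv hσ hP, fun hfix => ?_⟩
  have hj : w.valuation K E.j ≤ 1 := (j_le_one_iff (Kb := Kb) hA hp hpv).2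
    ⟨⊥, inferInstance, fun σ hσ _ => hfix σ hσ⟩
  refine goodAt_of_level hA hp hpv hj (a := 2) ?_ fun σ hσ => hfix σ hσ 2
  calc 4 = 2 ^ 2 := rfl
    _ ≤ p ^ 2 := Nat.pow_le_pow_left hp.two_le 2

variable (Kb) in
/-- **Everywhere good reduction over the field of the points of order five and seven**, for every
curve with integral invariant. -/
theorem goodAt_torField {E : WeierstrassCurve K} [E.IsElliptic] (hj : IsIntegral ℤ E.j)
    (L : IntermediateField K Kb) [NumberField L] (h5 : FA.IsogenyNF.torField Kb E 5 ≤ L)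
    (h7 : FA.IsogenyNF.torField Kb E 7 ≤ L) (Q : HeightOneSpectrum (𝓞 L)) :
    GoodAt (E.map (algebraMap K L)) Q := by
  have : Algebra.IsAlgebraic L Kb := Algebra.IsAlgebraic.tower_top (K := K) L
  obtain ⟨A, hA⟩ := exists_overPlace (K := L) Kb Q
  have hjL : Q.valuation L (E.map (algebraMap K L)).j ≤ 1 := by
    rw [map_j]
    have hi : IsIntegral ℤ (algebraMap K L E.j) := hj.map (algebraMap K L).toIntAlgHom
    exact Q.valuation_le_one (⟨_, hi⟩ : 𝓞 L)
  have key : ∀ p : ℕ, p.Prime → 4 ≤ p → Q.valuation L (p : L) = 1 →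
      FA.IsogenyNF.torField Kb E p ≤ L → GoodAt (E.map (algebraMap K L)) Q := by
    intro p hp hp4 hpQ hle
    refine goodAt_of_level (Kb := Kb) hA hp hpQ hjL (a := 1) (by rwa [pow_one])
      fun σ _ P hP => ?_
    have h := FA.IsogenyNF.smul_torField E (σ := σ.restrictScalars K) (n := p)
      (fun x hx => σ.commutes ⟨x, hle hx⟩)
      (P := (show (E.toAffine⁄Kb).Point from P)) (by rw [pow_one] at hP; exact hP)
    rcases P with _ | ⟨x, y, hxy⟩
    · exact smul_zero σ
    · exact h
  by_cases h : Q.valuation L (5 : ℕ) = 1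
  · exact key 5 (by norm_num) (by norm_num) h h5
  refine key 7 (by norm_num) (by norm_num) ?_ h7
  have hle : ∀ k : ℕ, Q.valuation L (k : L) ≤ 1 := fun k => natCast_le_one k
  refine eq_one_of_not_lt (hle 7) fun h7' => ?_
  have h5' : Q.valuation L ((5 : ℕ) : L) < 1 := lt_of_le_of_ne (hle 5) h
  have h1 := (Q.valuation L).map_sub_lt (map_mul_lt_one (hle 3) h5') (map_mul_lt_one (hle 2) h7')
  norm_num at h1

end FA.GoodNF

end
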