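import Fermat.Agent.GoodReductionNF.IntegralModel

/-!
# The trace of Frobenius at a place of good reduction

Two equations good at a place differ by a change of variables integral there: the scaling is a unit
because the discriminants are, and a pole of the translations is excluded by the transformation
rules of `b₆`, `b₈`, `a₂` and `a₆`, the integers `3` and `4` being coprime. So the trace at the place
does not depend on the good equation, and it is attached to the curve.
-/

set_option autoImplicit false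
set_option linter.style.haveILetI false
set_option linter.unusedSectionVars false

noncomputable section

open WeierstrassCurve NumberField IsDedekindDomain FA.Local
open FA.TraceNF (frobTrace)
open scoped WeierstrassCurve.Affine Classical

namespace FA.GoodNF

section Valued

variable {L Γ : Type*} [Field L] [LinearOrderedCommGroupWithZero Γ] {v : Valuation L Γ}

/-- **Good equations differ by an integral change of variables.** -/
theorem vc_integral {V : WeierstrassCurve L} {C : VariableChange L}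
    (hI : IntCoeff v V.toAffine) (hI' : IntCoeff v (C • V).toAffine) (hΔ : v V.Δ = 1)
    (hΔ' : v (C • V).Δ = 1) :
    v (C.u : L) = 1 ∧ v C.r ≤ 1 ∧ v C.s ≤ 1 ∧ v C.t ≤ 1 := by
  have hui : v ((C.u⁻¹ : Lˣ) : L) = 1 := by
    rw [variableChange_Δ, map_mul, map_pow, hΔ, mul_one] at hΔ'
    exact (pow_eq_one_iff_of_nonneg zero_le (by norm_num : (12 : ℕ) ≠ 0)).1 hΔ'
  have hu : v (C.u : L) = 1 := by
    have h := congrArg v C.u.mul_inv
    rwa [map_mul, hui, mul_one, map_one] at h
  -- the invariants of both equations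
  have hint : ∀ {W : WeierstrassCurve L}, IntCoeff v W.toAffine →
      v W.b₂ ≤ 1 ∧ v W.b₄ ≤ 1 ∧ v W.b₆ ≤ 1 ∧ v W.b₈ ≤ 1 := fun {W} h => by
    let W' : WeierstrassCurve v.integer :=
      ⟨⟨_, h.h₁⟩, ⟨_, h.h₂⟩, ⟨_, h.h₃⟩, ⟨_, h.h₄⟩, ⟨_, h.h₆⟩⟩
    have e : W'.map v.integer.subtype = W := rfl
    rw [← e, map_b₂, map_b₄, map_b₆, map_b₈]
    exact ⟨W'.b₂.2, W'.b₄.2, W'.b₆.2, W'.b₈.2⟩
  obtain ⟨hb2, hb4, hb6, hb8⟩ := hint hI
  obtain ⟨-, -, hb6', hb8'⟩ := hint hI'
  have hmul : ∀ {a b : L}, v a ≤ 1 → v b ≤ 1 → v (a * b) ≤ 1 := fun {a b} ha hb => by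
    rw [map_mul]
    exact mul_le_one' ha hb
  have hnat : ∀ k : ℕ, v (k : L) ≤ 1 := fun k => natCast_le_one k
  have hpow : ∀ {a : L} (k : ℕ), v a ≤ 1 → v (a ^ k) ≤ 1 := fun {a} k ha => by
    rw [map_pow]
    exact pow_le_one₀ zero_le ha
  rw [variableChange_b₆, map_mul, map_pow, hui, one_pow, one_mul] at hb6'
  rw [variableChange_b₈, map_mul, map_pow, hui, one_pow, one_mul] at hb8'
  have hwlt : ∀ {x : L}, 1 < v x → v x⁻¹ < 1 ∧ x ≠ 0 := fun {x} hx =>
    ⟨by rw [map_inv₀]; exact inv_lt_one_of_one_lt₀ hx,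
      fun h => by rw [h, map_zero] at hx; exact not_lt_zero hx⟩
  have hr : v C.r ≤ 1 := by
    by_contra hgt
    obtain ⟨hw, h0⟩ := hwlt (not_le.1 hgt)
    generalize C.r = r at *
    have h4 : v (4 : L) < 1 := by
      rw [show (4 : L) = r⁻¹ * (r⁻¹ * (r⁻¹ * (V.b₆ + 2 * r * V.b₄ + r ^ 2 * V.b₂ + 4 * r ^ 3) -
        r⁻¹ * V.b₆ - 2 * V.b₄) - V.b₂) by field_simp; ring]
      exact map_mul_lt_one' hw (le_trans (v.map_sub _ _) (max_le (hmul hw.le
        (le_trans (v.map_sub _ _) (max_le (le_trans (v.map_sub _ _)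
          (max_le (hmul hw.le hb6') (hmul hw.le hb6))) (hmul (by exact_mod_cast hnat 2) hb4)))) hb2))
    have h3 : v (3 : L) < 1 := by
      rw [show (3 : L) = r⁻¹ * (r⁻¹ * (r⁻¹ * (r⁻¹ * (V.b₈ + 3 * r * V.b₆ + 3 * r ^ 2 * V.b₄ +
        r ^ 3 * V.b₂ + 3 * r ^ 4) - r⁻¹ * V.b₈ - 3 * V.b₆) - 3 * V.b₄) - V.b₂) by field_simp; ring]
      exact map_mul_lt_one' hw (le_trans (v.map_sub _ _) (max_le (hmul hw.le
        (le_trans (v.map_sub _ _) (max_le (hmul hw.le (le_trans (v.map_sub _ _) (max_le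
          (le_trans (v.map_sub _ _) (max_le (hmul hw.le hb8') (hmul hw.le hb8)))
          (hmul (by exact_mod_cast hnat 3) hb6)))) (hmul (by exact_mod_cast hnat 3) hb4)))) hb2))
    have h1 := v.map_sub_lt h4 h3
    norm_num at h1
  have hs : v C.s ≤ 1 := by
    have h := hI'.h₂
    change v (C • V).a₂ ≤ 1 at h
    rw [variableChange_a₂, map_mul, map_pow, hui, one_pow, one_mul] at h
    by_contra hgt
    obtain ⟨hw, h0⟩ := hwlt (not_le.1 hgt)
    generalize C.s = s at *
    have h1 : v (1 : L) < 1 := by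
      rw [show (1 : L) = s⁻¹ * (s⁻¹ * (V.a₂ + 3 * C.r - (V.a₂ - s * V.a₁ + 3 * C.r - s ^ 2)) -
        V.a₁) by field_simp; ring]
      exact map_mul_lt_one' hw (le_trans (v.map_sub _ _) (max_le (hmul hw.le
        (le_trans (v.map_sub _ _) (max_le (le_trans (v.map_add _ _)
          (max_le hI.h₂ (hmul (by exact_mod_cast hnat 3) hr))) h))) hI.h₁))
    rw [map_one] at h1
    exact lt_irrefl _ h1
  refine ⟨hu, hr, hs, ?_⟩
  have h := hI'.h₆
  change v (C • V).a₆ ≤ 1 at h
  rw [variableChange_a₆, map_mul, map_pow, hui, one_pow, one_mul] at h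
  by_contra hgt
  obtain ⟨hw, h0⟩ := hwlt (not_le.1 hgt)
  generalize C.t = t at *
  have h1 : v (1 : L) < 1 := by
    rw [show (1 : L) = t⁻¹ * (t⁻¹ * (V.a₆ + C.r * V.a₄ + C.r ^ 2 * V.a₂ + C.r ^ 3 -
      (V.a₆ + C.r * V.a₄ + C.r ^ 2 * V.a₂ + C.r ^ 3 - t * V.a₃ - t ^ 2 - C.r * t * V.a₁)) -
        (V.a₃ + C.r * V.a₁)) by field_simp; ring]
    exact map_mul_lt_one' hw (le_trans (v.map_sub _ _) (max_le (hmul hw.le
      (le_trans (v.map_sub _ _) (max_le (le_trans (v.map_add _ _) (max_le (le_trans (v.map_add _ _)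
        (max_le (le_trans (v.map_add _ _) (max_le hI.h₆ (hmul hr hI.h₄)))
          (hmul (hpow 2 hr) hI.h₂))) (hpow 3 hr))) h)))
      (le_trans (v.map_add _ _) (max_le hI.h₃ (hmul hr hI.h₁)))))
  rw [map_one] at h1
  exact lt_irrefl _ h1

end Valued

universe u

variable {K : Type u} [Field K] [NumberField K]

/-- An equation over the integers has coefficients integral at every place. -/
theorem intCoeff_map (v : HeightOneSpectrum (𝓞 K)) (W₁ : WeierstrassCurve (𝓞 K)) :
    IntCoeff (v.valuation K) (W₁.map (algebraMap (𝓞 K) K)).toAffine :=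
  ⟨v.valuation_le_one _, v.valuation_le_one _, v.valuation_le_one _, v.valuation_le_one _,
    v.valuation_le_one _⟩

/-- The discriminant outside the place is a unit there. -/
theorem valuation_map_Δ {v : HeightOneSpectrum (𝓞 K)} {W₁ : WeierstrassCurve (𝓞 K)}
    (h : W₁.Δ ∉ v.asIdeal) : v.valuation K (W₁.map (algebraMap (𝓞 K) K)).Δ = 1 := by
  rw [map_Δ]
  exact le_antisymm (v.valuation_le_one _)
    (not_lt.1 fun hlt => h ((v.valuation_lt_one_iff_mem _).1 hlt))

/-- **The trace of Frobenius at a place**: that of a good equation, and `0` at the bad places. -/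
def traceAt (E : WeierstrassCurve K) (v : HeightOneSpectrum (𝓞 K)) : ℤ :=
  if h : GoodAt E v then frobTrace (exists_globalModel h).choose v else 0

/-- At a bad place the trace is `0`. -/
theorem traceAt_of_not_good {E : WeierstrassCurve K} {v : HeightOneSpectrum (𝓞 K)}
    (h : ¬ GoodAt E v) : traceAt E v = 0 :=
  dif_neg h

/-- An equation over the integers with discriminant outside the place shows good reduction. -/
theorem goodAt_of_model {E : WeierstrassCurve K} {v : HeightOneSpectrum (𝓞 K)}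
    {W₁ : WeierstrassCurve (𝓞 K)} {C : VariableChange K}
    (hC : C • E = W₁.map (algebraMap (𝓞 K) K)) (hΔ : W₁.Δ ∉ v.asIdeal) : GoodAt E v :=
  ⟨C, hC ▸ intCoeff_map v W₁, hC ▸ valuation_map_Δ hΔ⟩

/-- **The trace does not depend on the good equation.** -/
theorem traceAt_eq {E : WeierstrassCurve K} {v : HeightOneSpectrum (𝓞 K)}
    {W₁ : WeierstrassCurve (𝓞 K)} {C : VariableChange K}
    (hC : C • E = W₁.map (algebraMap (𝓞 K) K)) (hΔ : W₁.Δ ∉ v.asIdeal) :
    traceAt E v = frobTrace W₁ v := by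
  have h := goodAt_of_model hC hΔ
  rw [traceAt, dif_pos h]
  obtain ⟨C₂, hC₂, hΔ₂⟩ := (exists_globalModel h).choose_spec
  set W₂ := (exists_globalModel h).choose
  have he : (C * C₂⁻¹) • W₂.map (algebraMap (𝓞 K) K) = W₁.map (algebraMap (𝓞 K) K) := by
    rw [← hC₂, mul_smul, inv_smul_smul, hC]
  obtain ⟨hu, hr, hs, ht⟩ := vc_integral (intCoeff_map v W₂) (he ▸ intCoeff_map v W₁)
    (valuation_map_Δ hΔ₂) (he ▸ valuation_map_Δ hΔ)
  exact frobTrace_eq_of_vc W₂ W₁ he hΔ₂ hΔ hu hr hs ht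

/-- At a place not dividing the discriminant of an integral equation it is the trace of that
equation. -/
theorem traceAt_map {v : HeightOneSpectrum (𝓞 K)} (W₀ : WeierstrassCurve (𝓞 K))
    (hΔ : W₀.Δ ∉ v.asIdeal) : traceAt (W₀.map (algebraMap (𝓞 K) K)) v = frobTrace W₀ v :=
  traceAt_eq (C := 1) (one_smul _ _) hΔ

/-- The trace is invariant under isomorphisms. -/
theorem traceAt_smul (E : WeierstrassCurve K) (v : HeightOneSpectrum (𝓞 K)) (C : VariableChange K) :
    traceAt (C • E) v = traceAt E v := by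
  by_cases h : GoodAt E v
  · obtain ⟨W₁, D, hD, hΔ⟩ := exists_globalModel h
    rw [traceAt_eq hD hΔ, traceAt_eq (C := D * C⁻¹) (by rw [mul_smul, inv_smul_smul, hD]) hΔ]
  · rw [traceAt_of_not_good h, traceAt_of_not_good]
    rintro ⟨D, hI, hΔ⟩
    exact h ⟨D * C, by rwa [mul_smul], by rwa [mul_smul]⟩

end FA.GoodNF

end
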