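import Fermat.Agent.GoodReductionNF.Criterion
import Fermat.Agent.TraceNF.Place

/-!
# Global integral models with good reduction at a given place

An equation with coefficients integral at a place and unit discriminant there becomes, after a
scaling by an element outside the place, an equation over the integers with discriminant outside the
place. Two equations over the integers which differ by a change of variables integral at a place of
good reduction of both have the same trace there.
-/

set_option autoImplicit false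
set_option linter.style.haveILetI false
set_option linter.unusedSectionVars false

noncomputable section

open WeierstrassCurve NumberField IsDedekindDomain
open FA.TraceNF (frobTrace)
open scoped WeierstrassCurve.Affine Classical

namespace FA.GoodNF

universe u

variable {K : Type u} [Field K] [NumberField K]

/-- An element integral at `v` times a suitable element outside `v` is an integer. -/
theorem exists_den {v : HeightOneSpectrum (𝓞 K)} {x : K} (hx : v.valuation K x ≤ 1) :
    ∃ m : 𝓞 K, m ∉ v.asIdeal ∧ ∃ n : 𝓞 K, (m : K) * x = n := by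
  obtain ⟨n, ⟨d, hd⟩, he⟩ := v.exists_primeCompl_mul_eq_of_integer x hx
  exact ⟨d, hd, n, (mul_comm _ _).trans he⟩

/-- **A global integral model with discriminant outside the place.** -/
theorem exists_globalModel {E : WeierstrassCurve K} {v : HeightOneSpectrum (𝓞 K)}
    (h : GoodAt E v) :
    ∃ (W₁ : WeierstrassCurve (𝓞 K)) (C : VariableChange K),
      C • E = W₁.map (algebraMap (𝓞 K) K) ∧ W₁.Δ ∉ v.asIdeal := by
  obtain ⟨C, hI, hΔ⟩ := h
  obtain ⟨m₁, hm₁, n₁, e₁⟩ := exists_den (x := (C • E).a₁) hI.h₁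
  obtain ⟨m₂, hm₂, n₂, e₂⟩ := exists_den (x := (C • E).a₂) hI.h₂
  obtain ⟨m₃, hm₃, n₃, e₃⟩ := exists_den (x := (C • E).a₃) hI.h₃
  obtain ⟨m₄, hm₄, n₄, e₄⟩ := exists_den (x := (C • E).a₄) hI.h₄
  obtain ⟨m₆, hm₆, n₆, e₆⟩ := exists_den (x := (C • E).a₆) hI.h₆
  set m := m₁ * m₂ * m₃ * m₄ * m₆ with hm
  have hmv : m ∉ v.asIdeal := fun hmem => by
    rcases v.isPrime.mem_or_mem hmem with hmem | hmem
    · rcases v.isPrime.mem_or_mem hmem with hmem | hmem
      · rcases v.isPrime.mem_or_mem hmem with hmem | hmem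
        · rcases v.isPrime.mem_or_mem hmem with hmem | hmem
          · exact hm₁ hmem
          · exact hm₂ hmem
        · exact hm₃ hmem
      · exact hm₄ hmem
    · exact hm₆ hmem
  have hm0 : (m : K) ≠ 0 := RingOfIntegers.coe_ne_zero_iff.mpr fun h0 => hmv (by simp [h0])
  let D : VariableChange K := ⟨Units.mk0 ((m : K)⁻¹) (inv_ne_zero hm0), 0, 0, 0⟩
  have e : ((D.u⁻¹ : Kˣ) : K) = m := by simp [D]
  let W₁ : WeierstrassCurve (𝓞 K) := ⟨m₂ * m₃ * m₄ * m₆ * n₁, m * (m₁ * m₃ * m₄ * m₆ * n₂),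
    m ^ 2 * (m₁ * m₂ * m₄ * m₆ * n₃), m ^ 3 * (m₁ * m₂ * m₃ * m₆ * n₄),
    m ^ 5 * (m₁ * m₂ * m₃ * m₄ * n₆)⟩
  have hW : (D * C) • E = W₁.map (algebraMap (𝓞 K) K) := by
    rw [mul_smul]
    refine WeierstrassCurve.ext ?_ ?_ ?_ ?_ ?_
    · rw [variableChange_a₁]
      simp only [e, W₁, WeierstrassCurve.map_a₁, map_mul, hm]
      simp only [D, mul_zero, add_zero]
      linear_combination ((m₂ : K) * m₃ * m₄ * m₆) * e₁
    · rw [variableChange_a₂]
      simp only [e, W₁, WeierstrassCurve.map_a₂, map_mul, hm]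
      simp only [D, mul_zero, add_zero, zero_mul, sub_zero, zero_pow two_ne_zero]
      linear_combination ((m₁ : K) * m₂ * m₃ * m₄ * m₆ * (m₁ * m₃ * m₄ * m₆)) * e₂
    · rw [variableChange_a₃]
      simp only [e, W₁, WeierstrassCurve.map_a₃, map_mul, map_pow, hm]
      simp only [D, mul_zero, add_zero, zero_mul]
      linear_combination (((m₁ : K) * m₂ * m₃ * m₄ * m₆) ^ 2 * (m₁ * m₂ * m₄ * m₆)) * e₃
    · rw [variableChange_a₄]
      simp only [e, W₁, WeierstrassCurve.map_a₄, map_mul, map_pow, hm]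
      simp only [D, mul_zero, add_zero, zero_mul, sub_zero, zero_pow two_ne_zero]
      linear_combination (((m₁ : K) * m₂ * m₃ * m₄ * m₆) ^ 3 * (m₁ * m₂ * m₃ * m₆)) * e₄
    · rw [variableChange_a₆]
      simp only [e, W₁, WeierstrassCurve.map_a₆, map_mul, map_pow, hm]
      simp only [D, mul_zero, add_zero, zero_mul, sub_zero, zero_pow two_ne_zero,
        zero_pow three_ne_zero]
      linear_combination (((m₁ : K) * m₂ * m₃ * m₄ * m₆) ^ 5 * (m₁ * m₂ * m₃ * m₄)) * e₆
  refine ⟨W₁, D * C, hW, fun hmem => ?_⟩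
  have h1 : v.valuation K (W₁.map (algebraMap (𝓞 K) K)).Δ < 1 := by
    rw [map_Δ]
    exact (v.valuation_lt_one_iff_mem _).2 hmem
  rw [← hW, mul_smul, variableChange_Δ, map_mul, map_pow, e, hΔ, mul_one] at h1
  have hm1 : v.valuation K (m : K) = 1 := le_antisymm (v.valuation_le_one m)
    (not_lt.1 fun h => hmv ((v.valuation_lt_one_iff_mem m).1 h))
  rw [hm1, one_pow] at h1
  exact lt_irrefl _ h1

/-- **The trace is the same for isomorphic equations**, at a place where both are good and the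
isomorphism is integral. -/
theorem frobTrace_eq_of_vc (W₀ W₁ : WeierstrassCurve (𝓞 K)) {v : HeightOneSpectrum (𝓞 K)}
    {C : VariableChange K}
    (hC : C • W₀.map (algebraMap (𝓞 K) K) = W₁.map (algebraMap (𝓞 K) K))
    (hΔ : W₀.Δ ∉ v.asIdeal) (hΔ₁ : W₁.Δ ∉ v.asIdeal) (hu : v.valuation K (C.u : K) = 1)
    (hr : v.valuation K C.r ≤ 1) (hs : v.valuation K C.s ≤ 1) (ht : v.valuation K C.t ≤ 1) :
    frobTrace W₀ v = frobTrace W₁ v := by
  haveI := v.isMaximal
  letI := Ideal.Quotient.field v.asIdeal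
  let S := (v.valuation K).valuationSubring
  have hmem : ∀ x : K, v.valuation K x ≤ 1 → x ∈ S := fun x h => h
  let ι : 𝓞 K →+* S := (algebraMap (𝓞 K) K).codRestrict S.toSubring fun x => v.valuation_le_one x
  -- the residue map on the valuation ring
  have hex : ∀ x : S, ∃ n d : 𝓞 K, d ∉ v.asIdeal ∧ (d : K) * (x : K) = n := fun x => by
    obtain ⟨d, hd, n, hn⟩ := exists_den (v := v) (x := (x : K)) x.2
    exact ⟨n, d, hd, hn⟩
  choose num den hden hnd using hex
  let ρ : S → 𝓞 K ⧸ v.asIdeal := fun x =>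
    Ideal.Quotient.mk _ (num x) / Ideal.Quotient.mk _ (den x)
  have hd0 : ∀ x, Ideal.Quotient.mk v.asIdeal (den x) ≠ 0 := fun x h =>
    hden x (Ideal.Quotient.eq_zero_iff_mem.1 h)
  have hρ : ∀ (x : S) (n d : 𝓞 K), d ∉ v.asIdeal → (d : K) * (x : K) = n →
      ρ x = Ideal.Quotient.mk _ n / Ideal.Quotient.mk _ d := fun x n d hd h => by
    have hd' : Ideal.Quotient.mk v.asIdeal d ≠ 0 := fun h0 =>
      hd (Ideal.Quotient.eq_zero_iff_mem.1 h0)
    rw [div_eq_div_iff (hd0 x) hd', ← map_mul, ← map_mul]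
    congr 1
    refine RingOfIntegers.coe_injective ?_
    push_cast
    linear_combination (den x : K) * h - (d : K) * hnd x
  let φ : S →+* 𝓞 K ⧸ v.asIdeal :=
    { toFun := ρ
      map_one' := (hρ 1 1 1 (fun h => v.isPrime.ne_top ((Ideal.eq_top_iff_one _).2 h))
        (by simp)).trans (by simp)
      map_mul' := fun x y => by
        rw [hρ (x * y) (num x * num y) (den x * den y)
          (fun h => (v.isPrime.mem_or_mem h).elim (hden x) (hden y))
          (by push_cast; linear_combination ((den y : K) * (y : K)) * hnd x + (num x : K) * hnd y),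
          map_mul, map_mul, div_mul_div_comm]
      map_zero' := (hρ 0 0 1 (fun h => v.isPrime.ne_top ((Ideal.eq_top_iff_one _).2 h))
        (by simp)).trans (by simp)
      map_add' := fun x y => by
        rw [hρ (x + y) (num x * den y + num y * den x) (den x * den y)
          (fun h => (v.isPrime.mem_or_mem h).elim (hden x) (hden y))
          (by push_cast; linear_combination (den y : K) * hnd x + (den x : K) * hnd y),
          map_add, map_mul, map_mul, map_mul, div_add_div _ _ (hd0 x) (hd0 y)]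
        ring }
  have hφι : φ.comp ι = Ideal.Quotient.mk v.asIdeal := RingHom.ext fun x => by
    show ρ (ι x) = _
    rw [hρ (ι x) x 1 (fun h => v.isPrime.ne_top ((Ideal.eq_top_iff_one _).2 h)) (by simp [ι]),
      map_one, div_one]
  have hu' : v.valuation K ((C.u⁻¹ : Kˣ) : K) ≤ 1 := by
    rw [Units.val_inv_eq_inv_val, map_inv₀, hu, inv_one]
  let C' : VariableChange S := ⟨⟨⟨(C.u : K), hmem _ hu.le⟩, ⟨((C.u⁻¹ : Kˣ) : K), hmem _ hu'⟩,
    Subtype.ext C.u.mul_inv, Subtype.ext C.u.inv_mul⟩, ⟨_, hmem _ hr⟩, ⟨_, hmem _ hs⟩,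
    ⟨_, hmem _ ht⟩⟩
  have hC' : C' • W₀.map ι = W₁.map ι := by
    refine WeierstrassCurve.map_injective (f := S.subtype) Subtype.coe_injective ?_
    simp only []
    rw [← map_variableChange, WeierstrassCurve.map_map, WeierstrassCurve.map_map]
    exact hC
  have hred : C'.map φ • W₀.map (Ideal.Quotient.mk v.asIdeal) =
      W₁.map (Ideal.Quotient.mk v.asIdeal) := by
    rw [← hφι, ← WeierstrassCurve.map_map, ← WeierstrassCurve.map_map, map_variableChange, hC']
  haveI : (W₀.map (Ideal.Quotient.mk v.asIdeal)).IsElliptic := ⟨by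
    rw [map_Δ, isUnit_iff_ne_zero, Ne, Ideal.Quotient.eq_zero_iff_mem]; exact hΔ⟩
  haveI : (W₁.map (Ideal.Quotient.mk v.asIdeal)).IsElliptic := ⟨by
    rw [map_Δ, isUnit_iff_ne_zero, Ne, Ideal.Quotient.eq_zero_iff_mem]; exact hΔ₁⟩
  rw [frobTrace, frobTrace, Nat.card_congr (FA.Frob.vcEquiv _ hred).toEquiv.symm]

/-- All but finitely many places see a given change of variables as integral. -/
theorem finite_not_integral_vc (C : VariableChange K) :
    {v : HeightOneSpectrum (𝓞 K) | ¬ (v.valuation K (C.u : K) = 1 ∧ v.valuation K C.r ≤ 1 ∧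
      v.valuation K C.s ≤ 1 ∧ v.valuation K C.t ≤ 1)}.Finite := by
  have hf : ∀ x : K, {v : HeightOneSpectrum (𝓞 K) | 1 < v.valuation K x}.Finite :=
    fun x => HeightOneSpectrum.Support.finite (𝓞 K) x
  refine ((((hf (C.u : K)).union (hf ((C.u : K)⁻¹))).union (hf C.r)).union
    ((hf C.s).union (hf C.t))).subset fun v hv => ?_
  simp only [Set.mem_union, Set.mem_ofPred_eq] at hv ⊢
  by_contra h
  push Not at h
  refine hv ⟨le_antisymm h.1.1.1 ?_, h.1.2, h.2.1, h.2.2⟩
  have h2 := h.1.1.2
  rwa [map_inv₀, inv_le_one₀ (zero_lt_iff.2 ((v.valuation K).ne_zero_iff.2 C.u.ne_zero))] at h2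

end FA.GoodNF

end
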