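import Fermat.Agent.Local.Inertia
import Fermat.Agent.Local.Torsion
import Fermat.Agent.Local.Primes
import Fermat.Agent.Frob.Reduction
import Mathlib.AlgebraicGeometry.EllipticCurve.IsomOfJ

/-!
# Good equations over an algebraically closed valued field

An equation with integral invariant has over an algebraically closed valued field a form with
integral coefficients and unit discriminant: the Deuring form where `3` is a unit, the Legendre form
where `2` is one. A point of prime power order at least `4`, prime to the residue characteristic,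
is integral on it and has a reduction different from that of its double.
-/

set_option autoImplicit false
set_option linter.style.haveILetI false
set_option linter.unusedSectionVars false

noncomputable section

namespace FA.GoodNF

open Polynomial WeierstrassCurve FA.Local
open scoped WeierstrassCurve.Affine

variable {L : Type*} [Field L] {Γ : Type*} [LinearOrderedCommGroupWithZero Γ] {v : Valuation L Γ}

/-- A polynomial with integral coefficients and unit leading coefficient has an integral root. -/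
theorem exists_integral_root [IsAlgClosed L] {P : L[X]} (hd : P.natDegree ≠ 0)
    (hc : ∀ k, v (P.coeff k) ≤ 1) (hl : v P.leadingCoeff = 1) :
    ∃ x, P.eval x = 0 ∧ v x ≤ 1 := by
  obtain ⟨x, hx⟩ := IsAlgClosed.exists_root P
    (fun h => hd (natDegree_eq_zero_iff_degree_le_zero.mpr h.le))
  exact ⟨x, hx, root_le_one hc hl hx⟩

/-- The Deuring parameter at a prime other than `3`. -/
theorem exists_deuring [IsAlgClosed L] (v3 : v (3 : L) = 1) {J : L}
    (hJ : v J ≤ 1) :
    ∃ a : L, v a ≤ 1 ∧ v (a ^ 3 - 27) = 1 ∧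
      (a * (a ^ 3 - 24)) ^ 3 = J * (a ^ 3 - 27) := by
  let P : L[X] := X * (X - C 24) ^ 3 - C J * X + C (27 * J)
  have hP : P.natDegree = 4 ∧ P.leadingCoeff = 1 := by
    have hdeg : P.natDegree = 4 := by
      show (X * (X - C (24 : L)) ^ 3 - C J * X + C (27 * J)).natDegree = 4
      compute_degree!
    refine ⟨hdeg, ?_⟩
    rw [leadingCoeff, hdeg]
    show (X * (X - C (24 : L)) ^ 3 - C J * X + C (27 * J)).coeff 4 = 1
    compute_degree!
  obtain ⟨hdeg, hlead⟩ := hP
  have hc : ∀ k, v (P.coeff k) ≤ 1 := by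
    let B : Subring L := v.integer
    have hPB : P ∈ (mapRingHom B.subtype).range := by
      refine ⟨X * (X - C (24 : B)) ^ 3 - C ⟨J, hJ⟩ * X + C (27 * ⟨J, hJ⟩), ?_⟩
      simp [P, Polynomial.map_ofNat, map_ofNat]
    obtain ⟨Q, hQ⟩ := hPB
    intro k
    rw [← hQ, coe_mapRingHom, coeff_map]
    exact (Q.coeff k).2
  obtain ⟨t, ht, hti⟩ := exists_integral_root (by omega) hc (by rw [hlead, map_one])
  have ht0 : t * (t - 24) ^ 3 = J * (t - 27) := by
    simp only [P, eval_add, eval_sub, eval_mul, eval_pow, eval_X, eval_C] at ht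
    linear_combination ht
  obtain ⟨a, rfl⟩ := IsAlgClosed.exists_pow_nat_eq t (show 0 < 3 by norm_num)
  refine ⟨a, (pow_le_one_iff_of_nonneg zero_le (by norm_num : (3 : ℕ) ≠ 0)).mp
    (by rwa [← map_pow]), ?_, by linear_combination ht0⟩
  by_contra hne
  have h27 : v (a ^ 3 - 27) < 1 :=
    lt_of_le_of_ne (v.map_sub_le hti (natCast_le_one 27)) hne
  have h1 : v (a ^ 3 - 24) = 1 := by
    rw [show a ^ 3 - 24 = 3 + (a ^ 3 - 27) by ring,
      v.map_add_eq_of_lt_left (by rwa [v3]), v3]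
  have h2 : v (a ^ 3) = 1 := by
    have v27 : v (27 : L) = 1 := by
      rw [show (27 : L) = 3 ^ 3 by norm_num, map_pow, v3, one_pow]
    rw [show a ^ 3 = 27 + (a ^ 3 - 27) by ring,
      v.map_add_eq_of_lt_left (by rwa [v27]), v27]
  have := congrArg v ht0
  rw [map_mul, map_mul, map_pow _ (a ^ 3 - 24), h1, h2, one_pow, one_mul] at this
  exact absurd this.symm (ne_of_lt ((mul_le_of_le_one_left' hJ).trans_lt h27))

/-- The Legendre parameter at an odd prime. -/
theorem exists_legendre [IsAlgClosed L] [CharZero L] (v2 : v (2 : L) = 1) {J : L}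
    (hJ : v J ≤ 1) :
    ∃ l : L, v l = 1 ∧ v (l - 1) = 1 ∧
      256 * (l ^ 2 - l + 1) ^ 3 = J * (l ^ 2 * (l - 1) ^ 2) := by
  have v256 : v (256 : L) = 1 := by
    rw [show (256 : L) = 2 ^ 8 by norm_num, map_pow, v2, one_pow]
  let P : L[X] := C 256 * (X ^ 2 - X + 1) ^ 3 - C J * (X ^ 2 * (X - 1) ^ 2)
  have hP : P.natDegree = 6 ∧ P.leadingCoeff = 256 := by
    have hdeg : P.natDegree = 6 := by
      show (C (256 : L) * (X ^ 2 - X + 1) ^ 3 - C J * (X ^ 2 * (X - 1) ^ 2)).natDegree = 6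
      compute_degree!
    refine ⟨hdeg, ?_⟩
    rw [leadingCoeff, hdeg]
    show (C (256 : L) * (X ^ 2 - X + 1) ^ 3 - C J * (X ^ 2 * (X - 1) ^ 2)).coeff 6 = 256
    compute_degree!
  obtain ⟨hdeg, hlead⟩ := hP
  have hc : ∀ k, v (P.coeff k) ≤ 1 := by
    let B : Subring L := v.integer
    have hPB : P ∈ (mapRingHom B.subtype).range := by
      refine ⟨C 256 * (X ^ 2 - X + 1) ^ 3 - C ⟨J, hJ⟩ * (X ^ 2 * (X - 1) ^ 2), ?_⟩
      simp [P, Polynomial.map_ofNat, map_ofNat]
    obtain ⟨Q, hQ⟩ := hPB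
    intro k
    rw [← hQ, coe_mapRingHom, coeff_map]
    exact (Q.coeff k).2
  obtain ⟨l, hl, hli⟩ := exists_integral_root (by omega) hc (by rw [hlead, v256])
  have hl0 : 256 * (l ^ 2 - l + 1) ^ 3 = J * (l ^ 2 * (l - 1) ^ 2) := by
    simp only [P, eval_add, eval_sub, eval_mul, eval_pow, eval_X, eval_C, eval_one] at hl
    linear_combination hl
  have hli1 : v (l - 1) ≤ 1 := v.map_sub_le hli v.map_one.le
  have key : v l * v (l - 1) = 1 := by
    by_contra hne
    have hlt : v (l * (l - 1)) < 1 := by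
      rw [map_mul]; exact lt_of_le_of_ne (mul_le_one' hli hli1) hne
    have h1 : v (l ^ 2 - l + 1) = 1 := by
      rw [show l ^ 2 - l + 1 = 1 + l * (l - 1) by ring,
        v.map_add_eq_of_lt_left (by rwa [map_one]), map_one]
    have := congrArg v hl0
    rw [map_mul, map_mul, map_pow _ (l ^ 2 - l + 1), h1, v256, one_pow, one_mul,
      show l ^ 2 * (l - 1) ^ 2 = (l * (l - 1)) ^ 2 by ring, map_pow] at this
    exact absurd this.symm (ne_of_lt
      ((mul_le_of_le_one_left' hJ).trans_lt (pow_lt_one₀ zero_le hlt two_ne_zero)))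
  refine ⟨l, le_antisymm hli ?_, le_antisymm hli1 ?_, hl0⟩
  · calc 1 = v l * v (l - 1) := key.symm
      _ ≤ v l := mul_le_of_le_one_right' hli1
  · calc 1 = v l * v (l - 1) := key.symm
      _ ≤ v (l - 1) := mul_le_of_le_one_left' hli

/-- **A good equation with integral invariant**, over an algebraically closed valued field. -/
theorem exists_goodModel [IsAlgClosed L] [CharZero L] (E : WeierstrassCurve L) [E.IsElliptic]
    (hj : v E.j ≤ 1) :
    ∃ C : VariableChange L, IntCoeff v (C • E).toAffine ∧ v (C • E).Δ = 1 := by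
  have hj' : E.c₄ ^ 3 = E.j * E.Δ := by
    rw [WeierstrassCurve.j, Units.val_inv_eq_inv_val, coe_Δ']
    field_simp [E.isUnit_Δ.ne_zero]
  suffices h : ∃ W : WeierstrassCurve L,
      W.c₄ ^ 3 = E.j * W.Δ ∧ IntCoeff v W.toAffine ∧ v W.Δ = 1 by
    obtain ⟨W, e, hI, hΔ⟩ := h
    have : W.IsElliptic := ⟨isUnit_iff_ne_zero.mpr fun h0 => by simp [h0] at hΔ⟩
    obtain ⟨C, hC⟩ := exists_variableChange_of_j_eq E W (by
      rw [show W.j = W.Δ'⁻¹ * W.c₄ ^ 3 from rfl, Units.eq_inv_mul_iff_mul_eq, coe_Δ', e]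
      ring)
    exact ⟨C, by rw [hC]; exact hI, by rw [hC]; exact hΔ⟩
  by_cases v3 : v (3 : L) = 1
  · obtain ⟨a, ha, ha1, heq⟩ := exists_deuring v3 hj
    let W : WeierstrassCurve L := ⟨a, 0, 1, 0, 0⟩
    have eΔ : W.Δ = a ^ 3 - 27 := by simp only [W, WeierstrassCurve.Δ, b₂, b₄, b₆, b₈]; ring
    have ec : W.c₄ = a * (a ^ 3 - 24) := by simp only [W, c₄, b₂, b₄]; ring
    refine ⟨W, by rw [eΔ, ec, heq], ⟨?_, ?_, ?_, ?_, ?_⟩, by rw [eΔ, ha1]⟩
    all_goals simp only [W]
    · exact ha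
    all_goals simp
  · have h3 : v (3 : L) < 1 := lt_of_le_of_ne le_three v3
    have v2 : v (2 : L) = 1 := eq_one_of_not_lt le_two fun h2 => by
      have := v.map_sub_lt h3 h2
      norm_num at this
    obtain ⟨l, hl, hl1, heq⟩ := exists_legendre v2 hj
    let W : WeierstrassCurve L := ⟨0, -(1 + l), 0, l, 0⟩
    have eΔ : W.Δ = 16 * (l ^ 2 * (l - 1) ^ 2) := by
      simp only [W, WeierstrassCurve.Δ, b₂, b₄, b₆, b₈]; ring
    have ec : W.c₄ = 16 * (l ^ 2 - l + 1) := by simp only [W, c₄, b₂, b₄]; ring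
    refine ⟨W, by rw [eΔ, ec]; linear_combination 16 * heq, ⟨?_, ?_, ?_, ?_, ?_⟩, ?_⟩
    case refine_6 =>
      rw [eΔ, show (16 : L) = 2 ^ 4 by norm_num]
      simp [map_mul, map_pow, v2, hl, hl1]
    all_goals simp only [W]
    · simp
    · rw [v.map_neg]; exact v.map_add_le v.map_one.le hl.le
    · simp
    · exact hl.le
    · simp

/-- The kernel of reduction has no torsion of `p`-power order, `p` a unit. -/
theorem eq_zero_of_e1_prime_pow [DecidableEq L] [CharZero L] [IsAlgClosed L]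
    {A : ValuationSubring L} {V : Affine L} [WeierstrassCurve.IsElliptic V]
    (hI : IntCoeff A.valuation V) {p : ℕ} (hp : p.Prime) (hpv : A.valuation (p : L) = 1)
    {P : V.Point} (hP : E1 A.valuation V P) {n : ℕ} (hn : p ^ n • P = 0) : P = 0 := by
  induction n generalizing P with
  | zero => simpa using hn
  | succ n ih =>
    have h0 : p • p ^ n • P = 0 := by rw [← mul_nsmul', ← pow_succ', hn]
    refine ih hP ?_
    rcases hp.eq_two_or_odd' with rfl | hodd
    · exact FA.Frob.eq_zero_of_e1_of_two hI (by simpa using hpv) (e1_nsmul hI hP _) h0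
    · exact eq_zero_of_e1_of_nsmul hI hodd hpv (e1_nsmul hI hP _) h0

/-- A change of variables with integral entries and unit scaling keeps an integral equation with
unit discriminant integral with unit discriminant. -/
theorem intCoeff_smul (D : VariableChange L) {V : WeierstrassCurve L}
    (hI : IntCoeff v V.toAffine) (hΔ : v V.Δ = 1)
    (hu : v (D.u : L) = 1) (hr : v D.r ≤ 1) (hs : v D.s ≤ 1)
    (ht : v D.t ≤ 1) :
    IntCoeff v (D • V).toAffine ∧ v (D • V).Δ = 1 := by
  have hu' : v ((D.u⁻¹ : Lˣ) : L) = 1 := by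
    rw [Units.val_inv_eq_inv_val, map_inv₀, hu, inv_one]
  let R : Subring L := v.integer
  let D' : VariableChange R := ⟨⟨⟨D.u, hu.le⟩, ⟨((D.u⁻¹ : Lˣ) : L), hu'.le⟩,
    Subtype.ext D.u.mul_inv, Subtype.ext D.u.inv_mul⟩, ⟨_, hr⟩, ⟨_, hs⟩, ⟨_, ht⟩⟩
  let V' : WeierstrassCurve R := ⟨⟨_, hI.h₁⟩, ⟨_, hI.h₂⟩, ⟨_, hI.h₃⟩, ⟨_, hI.h₄⟩, ⟨_, hI.h₆⟩⟩
  have e : D • V = (D' • V').map R.subtype := by
    rw [← map_variableChange]
    rfl
  refine ⟨?_, ?_⟩
  · rw [e]
    exact ⟨(D' • V').a₁.2, (D' • V').a₂.2, (D' • V').a₃.2, (D' • V').a₄.2, (D' • V').a₆.2⟩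
  · rw [variableChange_Δ, map_mul, map_pow, hu', one_pow, one_mul, hΔ]

/-- A point of `p`-power order at least `4` on a good equation is integral, has no vertical tangent
and differs from its double modulo the maximal ideal. -/
theorem exists_torsion_pair [DecidableEq L] [CharZero L] [IsAlgClosed L] {A : ValuationSubring L}
    {p : ℕ} (hp : p.Prime) {V : WeierstrassCurve L} [V.IsElliptic]
    (hI : IntCoeff A.valuation V.toAffine) (hΔ : A.valuation V.Δ = 1)
    (hpv : A.valuation (p : L) = 1) (P₀ : V.toAffine.Point)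
    {a : ℕ} (hP₀k : ∀ k : ℕ, 0 < k → k < 4 → k • P₀ ≠ 0) (hP₀ : p ^ a • P₀ = 0) :
    ∃ (x₁ y₁ x₂ y₂ : L) (h₁ : V.toAffine.Nonsingular x₁ y₁) (h₂ : V.toAffine.Nonsingular x₂ y₂),
      P₀ = .some x₁ y₁ h₁ ∧ 2 • P₀ = .some x₂ y₂ h₂ ∧ A.valuation x₁ ≤ 1 ∧
        A.valuation (fy V.toAffine x₁ y₁) = 1 ∧ A.valuation (x₁ - x₂) = 1 := by
  have hord : ∀ k : ℕ, p ^ a • (k • P₀) = 0 := fun k => by rw [smul_comm, hP₀, nsmul_zero]
  have hinj : ∀ (R : V.toAffine.Point), p ^ a • R = 0 → E1 A.valuation V.toAffine R → R = 0 :=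
    fun R hR h1 => eq_zero_of_e1_prime_pow hI hp hpv h1 hR
  have haff : ∀ k : ℕ, 0 < k → k < 4 → ∃ (x y : L) (h : V.toAffine.Nonsingular x y),
      k • P₀ = .some x y h ∧ A.valuation x ≤ 1 := by
    intro k hk0 hk4
    rcases hR : k • P₀ with _ | ⟨x, y, h⟩
    · exact absurd hR (hP₀k k hk0 hk4)
    refine ⟨x, y, h, rfl, ?_⟩
    by_contra hx
    exact hP₀k k hk0 hk4 (hinj _ (hord k) (by rw [hR, e1_some]; exact not_le.mp hx))
  obtain ⟨x₁, y₁, h₁, e1, hx₁⟩ := haff 1 one_pos (by norm_num)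
  obtain ⟨x₂, y₂, h₂, e2, hx₂⟩ := haff 2 two_pos (by norm_num)
  have hy₁ := le_y_of_le_x hI h₁.1 hx₁
  have hy₂ := le_y_of_le_x hI h₂.1 hx₂
  have hns := nsRed_of_unit_Δ hI hΔ h₁.1 hx₁
  have hsum : ∀ {R : V.toAffine.Point} (k : ℕ), R = k • P₀ → 0 < k → k < 4 →
      E1 A.valuation V.toAffine R → False := fun {R} k hR h0 h5 h =>
    hP₀k k h0 h5 (hinj _ (hord k) (hR ▸ h))
  -- the vertical derivative at `P` is a unit
  set z := fy V.toAffine x₁ y₁ with hzdef
  have hz : A.valuation z = 1 := by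
    refine eq_one_of_not_lt (fy_le hI hx₁ hy₁) fun hlt => ?_
    have := e1_sub_of_congr hI h₁ ((Affine.nonsingular_neg x₁ y₁).mpr h₁) hx₁ hns
      (by rw [sub_self, map_zero]; exact zero_lt_one)
      (by rwa [show y₁ - V.toAffine.negY x₁ y₁ = z by simp only [hzdef, fy, Affine.negY]; ring])
    refine hsum 2 ?_ two_pos (by norm_num) this
    rw [← Affine.Point.neg_some h₁, sub_neg_eq_add, ← e1, one_nsmul, two_nsmul]
  -- the abscissas have different reductions
  have hd : A.valuation (x₁ - x₂) = 1 := by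
    refine eq_one_of_not_lt (A.valuation.map_sub_le hx₁ hx₂) fun hlt => ?_
    have hprod : A.valuation ((y₁ - y₂) * (y₁ - V.toAffine.negY x₂ y₂)) < 1 := by
      have q1 := h₁.1
      have q2 := h₂.1
      rw [Affine.equation_iff] at q1 q2
      rw [show (y₁ - y₂) * (y₁ - V.toAffine.negY x₂ y₂) = (x₁ - x₂) * (x₁ ^ 2 + x₁ * x₂ + x₂ ^ 2 +
          V.a₂ * (x₁ + x₂) + V.a₄ - V.a₁ * y₁) by
        simp only [Affine.negY]; linear_combination q1 - q2]
      refine map_mul_lt_one' hlt (A.valuation.map_sub_le (A.valuation.map_add_le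
        (A.valuation.map_add_le (A.valuation.map_add_le (A.valuation.map_add_le
          (map_pow_le_one hx₁ 2) (map_mul_le_one hx₁ hx₂)) (map_pow_le_one hx₂ 2))
          (map_mul_le_one hI.h₂ (A.valuation.map_add_le hx₁ hx₂))) hI.h₄)
        (map_mul_le_one hI.h₁ hy₁))
    rcases (by
      by_contra hc
      rw [not_or, not_lt, not_lt] at hc
      rw [map_mul] at hprod
      exact absurd hprod (not_lt.mpr (one_le_mul hc.1 hc.2)) :
        A.valuation (y₁ - y₂) < 1 ∨ A.valuation (y₁ - V.toAffine.negY x₂ y₂) < 1) with hy | hy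
    · refine hsum 1 ?_ one_pos (by norm_num)
        (e1_neg.mpr (e1_sub_of_congr hI h₁ h₂ hx₁ hns hlt hy))
      rw [neg_sub, ← e1, ← e2, two_nsmul, one_nsmul, add_sub_cancel_right]
    · refine hsum 3 ?_ three_pos (by norm_num)
        (e1_sub_of_congr hI h₁ ((Affine.nonsingular_neg x₂ y₂).mpr h₂) hx₁ hns hlt hy)
      rw [← Affine.Point.neg_some h₂, sub_neg_eq_add, ← e1, ← e2, ← add_nsmul]
  exact ⟨x₁, y₁, x₂, y₂, h₁, h₂, by rwa [one_nsmul] at e1, e2, hx₁, hz, hd⟩

end FA.GoodNF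

end
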