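import Fermat.Agent.GoodReductionNF.Place
import Fermat.Agent.GoodReductionNF.Model
import Fermat.Agent.Frob.VarChange
import Fermat.Agent.IsogenyNF.Transfer

/-!
# A torsion point fixed by inertia forces good reduction, at every place of every number field

Let `j` be integral at a place `w` and let inertia fix one point `P` of prime power order at least
`4`, prime to `w`. In a good equation over the algebraic closure `P` and its double have different
reductions, so the good equation with `P` at the origin, horizontal tangent and scaling normalised by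
`P` is reached by a change of variables which every automorphism fixing `P` fixes. Its scaling has
the value of a power `π ^ k` of a uniformizer and its other entries are moved by Frobenius only by
the multiples of the powers of `π` that matter. So they may be replaced by elements of the number
field, which gives an equation over it with unit discriminant at `w`.
-/

set_option autoImplicit false
set_option linter.style.haveILetI false
set_option linter.unusedSectionVars false

noncomputable section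

namespace FA.GoodNF

open WeierstrassCurve NumberField IsDedekindDomain FA.Frob FA.Local FA.OpenImageNF
open scoped WeierstrassCurve.Affine

universe u v

/-- Good reduction at a place: a change of variables over the field gives an equation with
coefficients integral at the place and unit discriminant. -/
def GoodAt {K : Type u} [Field K] [NumberField K] (E : WeierstrassCurve K)
    (w : HeightOneSpectrum (𝓞 K)) : Prop :=
  ∃ C : VariableChange K, IntCoeff (w.valuation K) (C • E).toAffine ∧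
    w.valuation K (C • E).Δ = 1

variable {K : Type u} [Field K] [NumberField K] {Kb : Type v} [Field Kb] [DecidableEq Kb]
  [Algebra K Kb] [CharZero Kb] [IsAlgClosed Kb] [Algebra.IsAlgebraic K Kb]
  {A : ValuationSubring Kb} (E : WeierstrassCurve K) [E.IsElliptic]

/-- **A good equation with a torsion point at the origin**: if `P` has `p`-power order at least
`4` then the change of variables to a good equation with `P` at the origin, horizontal tangent and
scaling normalised by `P` is fixed by every inertia element fixing `P`. -/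
theorem exists_goodModel_of_point {p : ℕ} (hp : p.Prime) (hpv : A.valuation (p : Kb) = 1)
    (hj : A.valuation (algebraMap K Kb E.j) ≤ 1) {a : ℕ} {P : (E.toAffine⁄Kb).Point}
    (hP : p ^ a • P = 0)
    (hPk : ∀ k : ℕ, 0 < k → k < 4 → k • P ≠ 0) :
    ∃ (C : VariableChange Kb) (V : WeierstrassCurve Kb), V = C • (E.baseChange Kb) ∧
      IntCoeff A.valuation V.toAffine ∧ A.valuation V.Δ = 1 ∧
      (∀ σ : Kb ≃ₐ[K] Kb, σ • P = P →
        σ (C.u : Kb) = C.u ∧ σ C.r = C.r ∧ σ C.s = C.s ∧ σ C.t = C.t) ∧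
      ∃ h : (E.baseChange Kb).toAffine.Nonsingular C.r C.t,
        (Affine.Point.some C.r C.t h : (E.toAffine⁄Kb).Point) = P := by
  haveI : (E.baseChange Kb).IsElliptic := inferInstanceAs (E.map (algebraMap K Kb)).IsElliptic
  obtain ⟨C₀, hI₀, hΔ₀⟩ := exists_goodModel (v := A.valuation) (E.baseChange Kb)
    (by rw [show (E.baseChange Kb).j = algebraMap K Kb E.j from map_j _ _]; exact hj)
  obtain ⟨V₀, hV₀, hI, hΔ⟩ : ∃ V : WeierstrassCurve Kb, V = C₀ • E.baseChange Kb ∧
      IntCoeff A.valuation V.toAffine ∧ A.valuation V.Δ = 1 := ⟨_, rfl, hI₀, hΔ₀⟩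
  haveI : V₀.IsElliptic := ⟨isUnit_iff_ne_zero.mpr fun h0 => by simp [h0] at hΔ⟩
  let e : V₀.toAffine.Point ≃+ (E.baseChange Kb).toAffine.Point := vcEquiv C₀ hV₀.symm
  set P₀ : V₀.toAffine.Point := e.symm P with hP₀
  obtain ⟨x₁, y₁, x₂, y₂, h₁, h₂, e1, e2, hx₁, hz, hd⟩ := exists_torsion_pair hp hI hΔ
    hpv P₀ (a := a)
    (fun k hk0 hk4 h => hPk k hk0 hk4 (e.symm.injective (by
      rw [map_nsmul, ← hP₀, h, map_zero])))
    (by rw [hP₀, ← map_nsmul, hP, map_zero])
  have heP : e P₀ = P := e.apply_symm_apply P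
  have hco : ∀ (k : ℕ) {x y : Kb} (h : V₀.toAffine.Nonsingular x y), k • P₀ = .some x y h →
      ∀ σ : Kb ≃ₐ[K] Kb, σ • P = P →
        σ (vcX C₀ x) = vcX C₀ x ∧ σ (vcY C₀ x y) = vcY C₀ x y := by
    intro k x y h hk σ hfix
    have hf : σ • e (k • P₀) = e (k • P₀) := by
      rw [map_nsmul, heP]
      exact (map_nsmul (DistribSMul.toAddMonoidHom ((E.toAffine⁄Kb).Point) σ) k P).trans
        (congrArg (k • ·) hfix)
    rw [hk] at hf
    change Affine.Point.map σ.toAlgHom (vcFun C₀ hV₀.symm (.some x y h)) =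
      vcFun C₀ hV₀.symm (.some x y h) at hf
    simpa [vcFun, Affine.Point.map_some] using hf
  set u := (C₀.u : Kb) with hu
  have hu0 : u ≠ 0 := C₀.u.ne_zero
  set z := fy V₀.toAffine x₁ y₁
  have hz0 : z ≠ 0 := fun h0 => by simp [h0] at hz
  have hd0 : x₁ - x₂ ≠ 0 := fun h0 => by simp [h0] at hd
  have hy₁ := le_y_of_le_x hI h₁.1 hx₁
  set sl := fx V₀.toAffine x₁ y₁ / z with hsl
  have hsl1 : A.valuation sl ≤ 1 := by
    rw [hsl, map_div₀, hz, div_one]
    exact fx_le hI hx₁ hy₁
  let D : VariableChange Kb := ⟨Units.mk0 (z / (x₁ - x₂)) (div_ne_zero hz0 hd0), x₁, sl, y₁⟩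
  obtain ⟨hI', hΔ'⟩ := intCoeff_smul D hI hΔ
    (show A.valuation (z / (x₁ - x₂)) = 1 by rw [map_div₀, hz, hd, div_one]) hx₁ hsl1 hy₁
  have hr : (D * C₀).r = vcX C₀ x₁ := by
    simp only [VariableChange.mul_def, D, vcX]; ring
  have ht : (D * C₀).t = vcY C₀ x₁ y₁ := by
    simp only [VariableChange.mul_def, D, vcY]; ring
  -- the derivatives at the point on `W`
  let Wa := (E.baseChange Kb).toAffine
  obtain ⟨c1, c2, c3, c4, -⟩ := vc_coeffs C₀ hV₀.symm
  have hfy : fy Wa (vcX C₀ x₁) (vcY C₀ x₁ y₁) = u ^ 3 * z := by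
    simp only [fy, Wa, z, vcX, vcY]
    rw [show (E.baseChange Kb).toAffine.a₁ = (E.baseChange Kb).a₁ from rfl,
      show (E.baseChange Kb).toAffine.a₃ = (E.baseChange Kb).a₃ from rfl, c3, c1]
    ring
  have hfx : fx Wa (vcX C₀ x₁) (vcY C₀ x₁ y₁) = (u * sl + C₀.s) * (u ^ 3 * z) := by
    rw [hsl]
    field_simp
    simp only [fx, fy, Wa, z, vcX, vcY]
    rw [show (E.baseChange Kb).toAffine.a₁ = (E.baseChange Kb).a₁ from rfl,
      show (E.baseChange Kb).toAffine.a₂ = (E.baseChange Kb).a₂ from rfl,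
      show (E.baseChange Kb).toAffine.a₄ = (E.baseChange Kb).a₄ from rfl, c4, c3, c2, c1]
    ring
  refine ⟨D * C₀, D • V₀, by rw [hV₀, mul_smul], hI', hΔ', fun σ hσP => ?_, ?_⟩
  · obtain ⟨hX, hY⟩ := hco 1 h₁ (by rw [one_nsmul, e1]) σ hσP
    obtain ⟨hX₂, -⟩ := hco 2 h₂ e2 σ hσP
    have ha : ∀ a : K, σ (algebraMap K Kb a) = algebraMap K Kb a := σ.commutes
    have hFy : σ (u ^ 3 * z) = u ^ 3 * z := by
      rw [← hfy]
      simp only [fy, Wa, map_add, map_mul, hX, hY, map_ofNat, WeierstrassCurve.map_a₁,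
        WeierstrassCurve.map_a₃, WeierstrassCurve.baseChange, ha]
    have hFx : σ ((u * sl + C₀.s) * (u ^ 3 * z)) = (u * sl + C₀.s) * (u ^ 3 * z) := by
      rw [← hfx]
      simp only [fx, Wa, map_add, map_sub, map_mul, map_pow, hX, hY, map_ofNat,
        WeierstrassCurve.map_a₁, WeierstrassCurve.map_a₂, WeierstrassCurve.map_a₄,
        WeierstrassCurve.baseChange, ha]
    refine ⟨?_, by rw [hr, hX], ?_, by rw [ht, hY]⟩
    · have hu' : ((D * C₀).u : Kb) = u ^ 3 * z / (vcX C₀ x₁ - vcX C₀ x₂) := by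
        simp only [VariableChange.mul_def, D, Units.val_mul, Units.val_mk0, vcX]
        rw [show u ^ 2 * x₁ + C₀.r - (u ^ 2 * x₂ + C₀.r) = u ^ 2 * (x₁ - x₂) by ring, ← hu]
        field_simp
      rw [hu', map_div₀, hFy, map_sub, hX, hX₂]
    · rw [map_mul, hFy] at hFx
      have := mul_right_cancel₀ (mul_ne_zero (pow_ne_zero 3 hu0) hz0) hFx
      simpa only [VariableChange.mul_def, D] using this
  · have h' : Wa.Nonsingular (D * C₀).r (D * C₀).t := by
      rw [hr, ht]
      exact Affine.equation_iff_nonsingular.mp ((equation_vc C₀ hV₀.symm x₁ y₁).mpr h₁.1)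
    refine ⟨h', ?_⟩
    have he : (Affine.Point.some _ _ h' : (E.toAffine⁄Kb).Point) = e P₀ := by
      rw [e1]
      show _ = vcFun C₀ hV₀.symm (.some x₁ y₁ h₁)
      simp only [vcFun, Affine.Point.some.injEq]
      exact ⟨hr, ht⟩
    rw [he, heP]

/-- The bounds for the conjugates of the entries of the change of variables under the
decomposition group. -/
theorem decomposition_bounds {p a : ℕ} (hp : p.Prime) (hpv : A.valuation (p : Kb) = 1)
    {C : VariableChange Kb} {V : WeierstrassCurve Kb} (hV : V = C • (E.baseChange Kb))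
    (hI : IntCoeff A.valuation V.toAffine) (hΔ : A.valuation V.Δ = 1)
    {h : (E.baseChange Kb).toAffine.Nonsingular C.r C.t}
    (hP : p ^ a • (Affine.Point.some C.r C.t h : (E.toAffine⁄Kb).Point) = 0) {σ : Kb ≃ₐ[K] Kb}
    (hσu : A.valuation (σ (C.u : Kb)) = A.valuation (C.u : Kb))
    (hσa : A.valuation (σ V.a₂) ≤ 1) :
    A.valuation (σ C.r - C.r) ≤ A.valuation (C.u : Kb) ^ 2 ∧
      A.valuation (σ C.s - C.s) ≤ A.valuation (C.u : Kb) ∧
      A.valuation (σ C.t - C.t - (σ C.r - C.r) * C.s) ≤ A.valuation (C.u : Kb) ^ 3 := by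
  haveI : V.IsElliptic := ⟨isUnit_iff_ne_zero.mpr fun h0 => by simp [h0] at hΔ⟩
  haveI : (E.baseChange Kb).IsElliptic := inferInstanceAs (E.map (algebraMap K Kb)).IsElliptic
  let e : V.toAffine.Point ≃+ (E.baseChange Kb).toAffine.Point := vcEquiv C hV.symm
  obtain ⟨Q, hQ⟩ := e.surjective (Affine.Point.map σ.toAlgHom (Affine.Point.some C.r C.t h))
  have hord : p ^ a • Q = 0 := e.injective (by
    rw [map_nsmul, map_zero, hQ, ← map_nsmul, hP, map_zero])
  change vcFun C hV.symm Q = _ at hQ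
  rw [Affine.Point.map_some] at hQ
  rcases Q with _ | ⟨x, y, hxy⟩
  · simp [vcFun] at hQ
  have hx : A.valuation x ≤ 1 := by
    by_contra hc
    have := eq_zero_of_e1_prime_pow hI hp
      hpv ((e1_some hxy).mpr (not_le.mp hc)) hord
    simp at this
  have hy := le_y_of_le_x hI hxy.1 hx
  simp only [vcFun, Affine.Point.some.injEq, vcX, vcY] at hQ
  obtain ⟨hr, ht⟩ := hQ
  change _ = σ C.r at hr
  change _ = σ C.t at ht
  set u := (C.u : Kb) with hu
  have hu0 : u ≠ 0 := C.u.ne_zero
  have h2 : A.valuation (σ C.r - C.r) ≤ A.valuation u ^ 2 := by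
    rw [← hr, add_sub_cancel_right, map_mul, map_pow]
    exact mul_le_of_le_one_right' hx
  refine ⟨h2, ?_, ?_⟩
  · obtain ⟨c1, c2, -⟩ := vc_coeffs C hV.symm
    have hcK : ∀ c : K, σ (algebraMap K Kb c) = algebraMap K Kb c := σ.commutes
    have f1 : σ (E.baseChange Kb).a₁ = (E.baseChange Kb).a₁ := hcK _
    have f2 : σ (E.baseChange Kb).a₂ = (E.baseChange Kb).a₂ := hcK _
    have g2 := congrArg σ c2
    rw [f2] at g2
    simp only [map_add, map_sub, map_mul, map_pow, map_ofNat] at g2
    have g1 := congrArg σ c1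
    rw [f1] at g1
    simp only [map_sub, map_mul, map_ofNat] at g1
    set d := σ C.s - C.s
    have key : d * (d + u * V.a₁) = 3 * (σ C.r - C.r) -
        ((σ u) ^ 2 * σ V.a₂ - u ^ 2 * V.a₂) := by
      linear_combination c2 - g2 + σ C.s * g1 - σ C.s * c1
    have hrhs : A.valuation (d * (d + u * V.a₁)) ≤ A.valuation u ^ 2 := by
      rw [key]
      refine A.valuation.map_sub_le ?_ (A.valuation.map_sub_le ?_ ?_)
      · rw [map_mul]
        exact (mul_le_of_le_one_left' le_three).trans h2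
      · rw [map_mul, map_pow, hσu]
        exact mul_le_of_le_one_right' hσa
      · rw [map_mul, map_pow]
        exact mul_le_of_le_one_right' hI.h₂
    by_contra hc
    rw [not_le] at hc
    have hlt : A.valuation (u * V.a₁) < A.valuation d := by
      rw [map_mul]
      exact (mul_le_of_le_one_right' hI.h₁).trans_lt hc
    rw [map_mul, A.valuation.map_add_eq_of_lt_left hlt, ← sq] at hrhs
    exact absurd hrhs (not_le.mpr (pow_lt_pow_left₀ hc zero_le two_ne_zero))
  · rw [show σ C.t - C.t - (σ C.r - C.r) * C.s = u ^ 3 * y by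
      rw [← hr, ← ht, hu]; ring, map_mul, map_pow]
    exact mul_le_of_le_one_right' hy

/-- A curve with coefficients integral at `w` and a torsion point fixed by inertia. -/
theorem goodAt_of_fixed_point_int {w : HeightOneSpectrum (𝓞 K)} (hA : OverPlace A w)
    (hW : IntCoeff (w.valuation K) E.toAffine) {p : ℕ} (hp : p.Prime)
    (hpv : A.valuation (p : Kb) = 1) (hj : A.valuation (algebraMap K Kb E.j) ≤ 1) {a : ℕ}
    {P : (E.toAffine⁄Kb).Point} (hP : p ^ a • P = 0) (hPk : ∀ k : ℕ, 0 < k → k < 4 → k • P ≠ 0)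
    (hfix : ∀ σ ∈ inertGroup K A, σ • P = P) : GoodAt E w := by
  haveI : (E.baseChange Kb).IsElliptic := inferInstanceAs (E.map (algebraMap K Kb)).IsElliptic
  obtain ⟨C, V, hV, hI, hΔ, hC, h, hPeq⟩ := exists_goodModel_of_point E hp hpv hj hP hPk
  subst hPeq
  replace hC := fun σ hσ => hC σ (hfix σ hσ)
  obtain ⟨π, hπ⟩ := w.valuation_exists_uniformizer K
  have hπ0 : π ≠ 0 := fun h0 => by rw [h0, map_zero] at hπ; exact WithZero.exp_ne_zero hπ.symm
  set q := algebraMap K Kb π with hqdef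
  have hq0 : q ≠ 0 := (map_ne_zero _).2 hπ0
  have hvq : A.valuation q ≠ 0 := A.valuation.ne_zero_iff.mpr hq0
  have hq1 : A.valuation q < 1 := hA.lt_one π (by
    rw [hπ, ← WithZero.exp_zero, WithZero.exp_lt_exp]; omega)
  set u := (C.u : Kb) with hu
  have hu0 : u ≠ 0 := C.u.ne_zero
  have hvu : A.valuation u ≠ 0 := A.valuation.ne_zero_iff.mpr hu0
  have hIW : IntCoeff A.valuation (E.baseChange Kb).toAffine :=
    FA.IsogenyNF.intCoeff_of_place hA.le_one hW
  -- the valuation of the scaling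
  have hu1 : A.valuation u ≤ 1 := by
    have e : V.Δ * u ^ 12 = (E.baseChange Kb).Δ := by
      rw [hV, variableChange_Δ, Units.val_inv_eq_inv_val, mul_right_comm, ← mul_pow,
        inv_mul_cancel₀ hu0, one_pow, one_mul]
    by_contra hc
    have h1 := congrArg A.valuation e
    rw [map_mul, hΔ, one_mul, map_pow] at h1
    have hle : A.valuation (E.baseChange Kb).Δ ≤ 1 := by
      let R : Subring Kb := A.valuation.integer
      let V' : WeierstrassCurve R :=
        ⟨⟨_, hIW.h₁⟩, ⟨_, hIW.h₂⟩, ⟨_, hIW.h₃⟩, ⟨_, hIW.h₄⟩, ⟨_, hIW.h₆⟩⟩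
      have e' : V'.map R.subtype = E.baseChange Kb := rfl
      rw [← e', map_Δ]
      exact V'.Δ.2
    exact absurd hle (not_le.mpr (h1 ▸ one_lt_pow₀ (not_le.mp hc) (by norm_num)))
  obtain ⟨k, hk⟩ : ∃ k : ℕ, A.valuation u = A.valuation q ^ k := by
    obtain ⟨j, hj'⟩ := exists_zpow_of_fixed hA hπ hu0 fun σ hσ => (hC σ hσ).1
    rcases Int.eq_nat_or_neg j with ⟨k, rfl | rfl⟩
    · exact ⟨k, by rw [← zpow_natCast]; exact hj'⟩
    · refine ⟨0, le_antisymm (by simpa using hu1) ?_⟩
      rw [pow_zero, hj', zpow_neg, zpow_natCast, one_le_inv₀ (pow_pos (zero_lt_iff.mpr hvq) k)]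
      exact pow_le_one₀ zero_le hq1.le
  -- the entries are integral
  have hr1 : A.valuation C.r ≤ 1 := by
    by_contra hc
    have := eq_zero_of_e1_prime_pow hIW hp hpv ((e1_some h).mpr (not_le.mp hc)) hP
    simp at this
  have ht1 := le_y_of_le_x hIW h.1 hr1
  have hs1 : A.valuation C.s ≤ 1 := by
    obtain ⟨c1, c2, -⟩ := vc_coeffs C hV.symm
    have e : C.s * (C.s + (E.baseChange Kb).a₁) =
        (E.baseChange Kb).a₂ + 3 * C.r - u ^ 2 * V.a₂ := by
      linear_combination C.s * c1 - c2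
    by_contra hc
    have hlt : A.valuation (E.baseChange Kb).a₁ < A.valuation C.s :=
      hIW.h₁.trans_lt (not_le.mp hc)
    have h1 := congrArg A.valuation e
    rw [map_mul, A.valuation.map_add_eq_of_lt_left hlt] at h1
    exact absurd (A.valuation.map_sub_le (A.valuation.map_add_le hIW.h₂
        (map_mul_le_one le_three hr1)) (map_mul_le_one (map_pow_le_one hu1 2) hI.h₂))
      (not_le.mpr (h1 ▸ one_lt_mul'' (not_le.mp hc) (not_le.mp hc)))
  -- Frobenius of a layer which contains the entries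
  have : IsAlgClosure K Kb := ⟨inferInstance, inferInstance⟩
  have : IsGalois K Kb := IsAlgClosure.isGalois K Kb
  let S : Set Kb := {u, C.r, C.s, C.t, V.a₂}
  have : Finite S := (Set.toFinite S).to_subtype
  let L := (FiniteGaloisIntermediateField.adjoin K S).toIntermediateField
  have hS : S ⊆ L := FiniteGaloisIntermediateField.subset_adjoin K S
  obtain ⟨F, hF⟩ := exists_frob_layer hA L
  obtain ⟨b1, b2, b3⟩ := decomposition_bounds E hp hpv hV hI hΔ hP (σ := F)
    (hF _ (hS (by simp [S, hu]))).1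
    (by rw [(hF _ (hS (by simp [S]))).1]; exact hI.h₂)
  -- replace the entries by elements of the field
  have hdesc := fun (x : Kb) (hxL : x ∈ L) => exists_congr_of_fixed hA hπ L
    (fun z hz => (hF z hz).2) hxL
  obtain ⟨r₀, hr₀1, hr₀⟩ := hdesc C.r (hS (by simp [S])) (fun σ hσ => (hC σ hσ).2.1) hr1 (2 * k)
    (by rw [mul_comm, pow_mul, ← hk]; exact b1)
  obtain ⟨s₀, hs₀1, hs₀⟩ := hdesc C.s (hS (by simp [S])) (fun σ hσ => (hC σ hσ).2.2.1) hs1 k
    (by rw [← hk]; exact b2)
  rw [mul_comm, pow_mul, ← hk, A.valuation.map_sub_swap] at hr₀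
  rw [← hk, A.valuation.map_sub_swap] at hs₀
  set t' := C.t + (algebraMap K Kb r₀ - C.r) * C.s with ht'
  obtain ⟨t₀, ht₀1, ht₀⟩ := hdesc t'
    (by
      rw [ht']
      exact add_mem (hS (by simp [S])) (mul_mem (sub_mem (L.algebraMap_mem r₀) (hS (by simp [S])))
        (hS (by simp [S]))))
    (fun σ hσ => by
      rw [ht', map_add, map_mul, map_sub, AlgEquiv.commutes, (hC σ hσ).2.1, (hC σ hσ).2.2.1,
        (hC σ hσ).2.2.2])
    (A.valuation.map_add_le ht1
      (map_mul_le_one (A.valuation.map_sub_le (hA.le_one r₀ hr₀1) hr1) hs1)) (3 * k)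
    (by
      rw [mul_comm, pow_mul, ← hk]
      rw [show F t' - t' = (F C.t - C.t - (F C.r - C.r) * C.s) +
          ((algebraMap K Kb r₀ - C.r) - (F C.r - C.r)) * (F C.s - C.s) by
        rw [ht', map_add, map_mul, map_sub, AlgEquiv.commutes]; ring]
      refine A.valuation.map_add_le b3 ?_
      rw [map_mul, pow_succ]
      exact mul_le_mul' (A.valuation.map_sub_le hr₀ b1) b2)
  rw [mul_comm, pow_mul, ← hk, A.valuation.map_sub_swap] at ht₀
  let C₁ : VariableChange K := ⟨Units.mk0 _ (pow_ne_zero k hπ0), r₀, s₀, t₀⟩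
  let D : VariableChange Kb := ⟨Units.mk0 (q ^ k / u) (div_ne_zero (pow_ne_zero _ hq0) hu0),
    (algebraMap K Kb r₀ - C.r) / u ^ 2, (algebraMap K Kb s₀ - C.s) / u,
    (algebraMap K Kb t₀ - t') / u ^ 3⟩
  have hDC : D * C = C₁.map (algebraMap K Kb) := by
    rw [VariableChange.mul_def]
    simp only [D, C₁, VariableChange.map]
    refine VariableChange.ext (Units.ext ?_) ?_ ?_ ?_
    · simp [← hu, hu0, hqdef]
    all_goals simp only [← hu, ht']; field_simp; ring
  have hle : ∀ {a b : Kb} {n : ℕ}, A.valuation a ≤ A.valuation b ^ n → b ≠ 0 →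
      A.valuation (a / b ^ n) ≤ 1 := fun {a b n} hab hb => by
    rw [map_div₀, map_pow, div_le_one₀ (pow_pos (A.valuation.pos_iff.mpr hb) n)]
    exact hab
  obtain ⟨hI', hΔ'⟩ := intCoeff_smul D hI hΔ
    (show A.valuation (q ^ k / u) = 1 by rw [map_div₀, map_pow, ← hk, div_self hvu])
    (hle hr₀ hu0) (show A.valuation ((algebraMap K Kb s₀ - C.s) / u) ≤ 1 by
      simpa only [pow_one] using hle (n := 1) (b := u) (by rwa [pow_one]) hu0)
    (hle ht₀ hu0)
  have hmap : D • V = (C₁ • E).map (algebraMap K Kb) := by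
    rw [hV, ← mul_smul, hDC, ← map_variableChange]
    rfl
  rw [hmap] at hI' hΔ'
  have hi := overPlace_le_one_iff hA
  exact ⟨C₁, ⟨(hi _).1 hI'.h₁, (hi _).1 hI'.h₂, (hi _).1 hI'.h₃, (hi _).1 hI'.h₄,
    (hi _).1 hI'.h₆⟩, (overPlace_eq_one_iff hA _).1 (by rw [← map_Δ]; exact hΔ')⟩

/-- Every curve has an equation with coefficients integral at a given place. -/
theorem exists_intCoeff (w : HeightOneSpectrum (𝓞 K)) :
    ∃ C : VariableChange K, IntCoeff (w.valuation K) (C • E).toAffine := by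
  obtain ⟨π, hπ⟩ := w.valuation_exists_uniformizer K
  have hπ0 : π ≠ 0 := fun h0 => by rw [h0, map_zero] at hπ; exact WithZero.exp_ne_zero hπ.symm
  have hex : ∀ c : K, ∃ m : ℕ, ∀ n, m ≤ n → w.valuation K (π ^ n * c) ≤ 1 := fun c => by
    rcases eq_or_ne c 0 with rfl | hc
    · exact ⟨0, fun n _ => by simp⟩
    refine ⟨(WithZero.log (w.valuation K c)).toNat, fun n hn => ?_⟩
    have hv : w.valuation K c ≠ 0 := (w.valuation K).ne_zero_iff.2 hc
    rw [map_mul, map_pow, hπ, ← WithZero.exp_log hv, ← WithZero.exp_nsmul, ← WithZero.exp_add,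
      ← WithZero.exp_zero, WithZero.exp_le_exp]
    simp only [Int.nsmul_eq_mul]
    omega
  obtain ⟨m₁, h₁⟩ := hex E.a₁
  obtain ⟨m₂, h₂⟩ := hex E.a₂
  obtain ⟨m₃, h₃⟩ := hex E.a₃
  obtain ⟨m₄, h₄⟩ := hex E.a₄
  obtain ⟨m₆, h₆⟩ := hex E.a₆
  set m := m₁ + m₂ + m₃ + m₄ + m₆
  let C : VariableChange K :=
    ⟨Units.mk0 ((π ^ m)⁻¹) (inv_ne_zero (pow_ne_zero m hπ0)), 0, 0, 0⟩
  have e : ((C.u⁻¹ : Kˣ) : K) = π ^ m := by simp [C]
  refine ⟨C, ?_, ?_, ?_, ?_, ?_⟩
  · simpa [variableChange_a₁, e, C] using h₁ m (by omega)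
  · simpa [variableChange_a₂, e, C, ← pow_mul] using h₂ (m * 2) (by omega)
  · simpa [variableChange_a₃, e, C, ← pow_mul] using h₃ (m * 3) (by omega)
  · simpa [variableChange_a₄, e, C, ← pow_mul] using h₄ (m * 4) (by omega)
  · simpa [variableChange_a₆, e, C, ← pow_mul] using h₆ (m * 6) (by omega)

/-- **One fixed point forces good reduction**: if `j` is integral at `w` and inertia fixes a point
of order a power of `p` and at least `4`, with `p` prime to `w`, then the curve has good reduction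
at `w`, also in residue characteristic `2` and `3`. -/
theorem goodAt_of_fixed_point {w : HeightOneSpectrum (𝓞 K)} (hA : OverPlace A w) {p : ℕ}
    (hp : p.Prime) (hpv : w.valuation K (p : K) = 1) (hj : w.valuation K E.j ≤ 1) {a : ℕ}
    {P : (E.toAffine⁄Kb).Point} (hP : p ^ a • P = 0) (hPk : ∀ k : ℕ, 0 < k → k < 4 → k • P ≠ 0)
    (hfix : ∀ σ ∈ inertGroup K A, σ • P = P) : GoodAt E w := by
  obtain ⟨C, hC⟩ := exists_intCoeff E w
  haveI : (E.baseChange Kb).IsElliptic := inferInstanceAs (E.map (algebraMap K Kb)).IsElliptic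
  haveI : ((C • E).baseChange Kb).IsElliptic :=
    inferInstanceAs ((C • E).map (algebraMap K Kb)).IsElliptic
  have hC' : C.map (algebraMap K Kb) • E.baseChange Kb = (C • E).baseChange Kb := by
    simp only [WeierstrassCurve.baseChange, map_variableChange]
  set e := FA.Frob.vcEquiv _ hC'
  obtain ⟨D, hD⟩ := goodAt_of_fixed_point_int (C • E) hA hC hp
    (by rw [← map_natCast (algebraMap K Kb)]; exact hA.eq_one hpv)
    (by rw [variableChange_j]; exact hA.le_one _ hj) (P := e.symm P) (a := a)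
    (by rw [← map_nsmul, hP, map_zero])
    (fun k h0 h4 h => hPk k h0 h4 (e.symm.injective (by rw [map_nsmul, h, map_zero])))
    (fun σ hσ => e.injective (by
      rw [FA.IsogenyNF.vcEquiv_smul hC', e.apply_symm_apply]
      exact hfix σ hσ))
  exact ⟨D * C, by rwa [mul_smul]⟩

end FA.GoodNF

end
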